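import Mathlib
import Fermat.Prelude.Thm_CongruenceSubgroup_one_mem_strictPeriods_Gamma0

/-! Nice functions (holomorphic, `1`-periodic, bounded at `i∞`) form a ring on which
`qExpansion 1` is an injective ring homomorphism. -/

set_option autoImplicit false

namespace Fermat.Agent.S23

open UpperHalfPlane ModularForm
open scoped MatrixGroups ModularForm Manifold

noncomputable section

/-- Holomorphic, `1`-periodic, bounded at `i∞`: the functions having a good `q`-expansion. -/
structure IsNice (F : ℍ → ℂ) : Prop where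
  holo : MDiff F
  per : Function.Periodic (F ∘ ofComplex) 1
  bdd : IsBoundedAtImInfty F

variable {F G : ℍ → ℂ}

theorem IsNice.analyticAt (h : IsNice F) : AnalyticAt ℂ (cuspFunction 1 F) 0 :=
  analyticAt_cuspFunction_zero one_pos h.per h.holo h.bdd

theorem IsNice.const (c : ℂ) : IsNice (fun _ => c) where
  holo := mdifferentiable_const
  per := fun _ => rfl
  bdd := Filter.const_boundedAtFilter atImInfty c

theorem IsNice.zero : IsNice 0 := IsNice.const 0

theorem IsNice.one : IsNice 1 := IsNice.const 1

theorem IsNice.add (hF : IsNice F) (hG : IsNice G) : IsNice (F + G) where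
  holo := hF.holo.add hG.holo
  per := fun z => by
    have h1 := hF.per z
    have h2 := hG.per z
    simp only [Function.comp_apply, Pi.add_apply] at *
    rw [h1, h2]
  bdd := hF.bdd.add hG.bdd

theorem IsNice.mul (hF : IsNice F) (hG : IsNice G) : IsNice (F * G) where
  holo := hF.holo.mul hG.holo
  per := fun z => by
    have h1 := hF.per z
    have h2 := hG.per z
    simp only [Function.comp_apply, Pi.mul_apply] at *
    rw [h1, h2]
  bdd := hF.bdd.mul hG.bdd

theorem IsNice.smul (c : ℂ) (hF : IsNice F) : IsNice (c • F) := by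
  have : c • F = (fun _ => c) * F := by ext z; simp
  rw [this]
  exact (IsNice.const c).mul hF

theorem IsNice.neg (hF : IsNice F) : IsNice (-F) := by
  have : -F = (-1 : ℂ) • F := by ext z; simp
  rw [this]
  exact hF.smul _

theorem IsNice.sub (hF : IsNice F) (hG : IsNice G) : IsNice (F - G) := by
  rw [sub_eq_add_neg]
  exact hF.add hG.neg

theorem IsNice.pow (hF : IsNice F) (n : ℕ) : IsNice (F ^ n) := by
  induction n with
  | zero => simpa using IsNice.one
  | succ n ih => rw [pow_succ]; exact ih.mul hF

theorem IsNice.sum {ι : Type*} (s : Finset ι) {f : ι → ℍ → ℂ} (h : ∀ i ∈ s, IsNice (f i)) :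
    IsNice (∑ i ∈ s, f i) := by
  classical
  induction s using Finset.induction_on with
  | empty => simpa using IsNice.zero
  | insert a s ha ih =>
    rw [Finset.sum_insert ha]
    exact (h a (Finset.mem_insert_self a s)).add (ih fun i hi => h i (Finset.mem_insert_of_mem hi))

theorem IsNice.qExpansion_add (hF : IsNice F) (hG : IsNice G) :
    qExpansion 1 (F + G) = qExpansion 1 F + qExpansion 1 G :=
  UpperHalfPlane.qExpansion_add hF.analyticAt hG.analyticAt

theorem IsNice.qExpansion_mul (hF : IsNice F) (hG : IsNice G) :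
    qExpansion 1 (F * G) = qExpansion 1 F * qExpansion 1 G :=
  UpperHalfPlane.qExpansion_mul hF.analyticAt hG.analyticAt

theorem IsNice.qExpansion_smul (c : ℂ) (hF : IsNice F) :
    qExpansion 1 (c • F) = c • qExpansion 1 F :=
  UpperHalfPlane.qExpansion_smul hF.analyticAt c

theorem IsNice.qExpansion_pow (hF : IsNice F) (n : ℕ) :
    qExpansion 1 (F ^ n) = qExpansion 1 F ^ n := by
  induction n with
  | zero => simpa using UpperHalfPlane.qExpansion_one 1
  | succ n ih => rw [pow_succ, (hF.pow n).qExpansion_mul hF, ih, pow_succ]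

theorem IsNice.qExpansion_sum {ι : Type*} (s : Finset ι) {f : ι → ℍ → ℂ}
    (h : ∀ i ∈ s, IsNice (f i)) :
    qExpansion 1 (∑ i ∈ s, f i) = ∑ i ∈ s, qExpansion 1 (f i) := by
  classical
  induction s using Finset.induction_on with
  | empty => simpa using UpperHalfPlane.qExpansion_zero 1
  | insert a s ha ih =>
    rw [Finset.sum_insert ha, Finset.sum_insert ha,
      (h a (Finset.mem_insert_self a s)).qExpansion_add
        (IsNice.sum s fun i hi => h i (Finset.mem_insert_of_mem hi)),
      ih fun i hi => h i (Finset.mem_insert_of_mem hi)]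

theorem IsNice.qExpansion_eq_zero_iff (hF : IsNice F) : qExpansion 1 F = 0 ↔ F = 0 :=
  UpperHalfPlane.qExpansion_eq_zero_iff one_pos hF.per hF.holo hF.bdd

theorem isNice_of_modularForm {Γ : Subgroup (GL (Fin 2) ℝ)} {k : ℤ}
    (h1 : (1 : ℝ) ∈ Γ.strictPeriods) (f : ModularForm Γ k) : IsNice f where
  holo := f.holo'
  per := SlashInvariantFormClass.periodic_comp_ofComplex f h1
  bdd := OnePoint.isBoundedAt_infty_iff.mp
    (ModularFormClass.bdd_at_cusps f (Subgroup.isCusp_of_mem_strictPeriods one_pos h1))

theorem isNice_levelOne {k : ℤ} (f : ModularForm 𝒮ℒ k) : IsNice f :=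
  isNice_of_modularForm one_mem_strictPeriods_SL f

theorem isNice_Gamma0 {N : ℕ} {k : ℤ} (f : ModularForm (CongruenceSubgroup.Gamma0 N) k) :
    IsNice f :=
  isNice_of_modularForm (CongruenceSubgroup.one_mem_strictPeriods_Gamma0 N) f

theorem isNice_cuspForm_Gamma0 {N : ℕ} {k : ℤ} (f : CuspForm (CongruenceSubgroup.Gamma0 N) k) :
    IsNice f where
  holo := f.holo'
  per := SlashInvariantFormClass.periodic_comp_ofComplex f
    (CongruenceSubgroup.one_mem_strictPeriods_Gamma0 N)
  bdd := OnePoint.isBoundedAt_infty_iff.mp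
    (ModularFormClass.bdd_at_cusps f (Subgroup.isCusp_of_mem_strictPeriods one_pos
      (CongruenceSubgroup.one_mem_strictPeriods_Gamma0 N)))

end

end Fermat.Agent.S23
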