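import Mathlib

set_option autoImplicit false
set_option linter.style.haveILetI false

namespace Fermat.Agent.S23

open Polynomial

/-- Extension of ring homs along algebraic extensions, in hom form. -/
theorem exists_ringHom_extend {R S M : Type*} [CommRing R] [IsDomain R] [Field S] [Field M]
    [IsAlgClosed M] (f : R →+* S) (g : R →+* M) (hf : Function.Injective f)
    (hg : Function.Injective g)
    (halg : letI := f.toAlgebra; Algebra.IsAlgebraic R S) :
    ∃ s : S →+* M, ∀ r, s (f r) = g r := by
  letI := f.toAlgebra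
  letI := g.toAlgebra
  haveI : Algebra.IsAlgebraic R S := halg
  haveI : FaithfulSMul R S := (faithfulSMul_iff_algebraMap_injective R S).mpr hf
  haveI : FaithfulSMul R M := (faithfulSMul_iff_algebraMap_injective R M).mpr hg
  exact ⟨(IsAlgClosed.lift : S →ₐ[R] M).toRingHom, fun r => AlgHom.commutes _ r⟩

/-- Any injective endomorphism of the polynomial ring on a transcendence basis extends. -/
theorem exists_ringHom_of_transcendenceBasis {F E : Type*} [Field F] [Field E] [IsAlgClosed E]
    [Algebra F E] {ι : Type*} {v : ι → E} (hv : IsTranscendenceBasis F v)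
    (ψ : MvPolynomial ι F →+* MvPolynomial ι F) (hψ : Function.Injective ψ) :
    ∃ s : E →+* E, ∀ P : MvPolynomial ι F,
      s (MvPolynomial.aeval v P) = MvPolynomial.aeval v (ψ P) := by
  have hinj : Function.Injective (MvPolynomial.aeval v : MvPolynomial ι F →ₐ[F] E) :=
    algebraicIndependent_iff_injective_aeval.1 hv.1
  refine exists_ringHom_extend (MvPolynomial.aeval v : MvPolynomial ι F →ₐ[F] E).toRingHom
    ((MvPolynomial.aeval v : MvPolynomial ι F →ₐ[F] E).toRingHom.comp ψ) hinj
    (hinj.comp hψ) ?_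
  letI := (MvPolynomial.aeval v : MvPolynomial ι F →ₐ[F] E).toRingHom.toAlgebra
  haveI := hv.isAlgebraic
  exact Algebra.IsAlgebraic.of_ringHom_of_comp_eq (S := Algebra.adjoin F (Set.range v)) (B := E)
    hv.1.aevalEquiv.toRingEquiv (RingHom.id E) hv.1.aevalEquiv.surjective
    Function.injective_id (by ext <;> rfl)

theorem exists_ringHom_ne_of_transcendental {E : Type*} [Field E] [IsAlgClosed E] [CharZero E]
    {F : Type*} [Field F] [Algebra F E]
    (x : E) (hx : Transcendental F x) : ∃ s : E →+* E, s x ≠ x := by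
  classical
  have h1 : AlgebraicIndepOn F id ({x} : Set E) :=
    (algebraicIndependent_unique_type_iff (R := F) (ι := ({x} : Set E))).mpr hx
  obtain ⟨t, hst, ht⟩ := exists_isTranscendenceBasis_superset h1
  have hxt : x ∈ t := hst rfl
  let x0 : t := ⟨x, hxt⟩
  let ψ : MvPolynomial t F →ₐ[F] MvPolynomial t F :=
    MvPolynomial.aeval fun b => if b = x0 then MvPolynomial.X b + 1 else MvPolynomial.X b
  let ψ' : MvPolynomial t F →ₐ[F] MvPolynomial t F :=
    MvPolynomial.aeval fun b => if b = x0 then MvPolynomial.X b - 1 else MvPolynomial.X b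
  have hcomp : ψ'.comp ψ = AlgHom.id F _ := by
    apply MvPolynomial.algHom_ext
    intro b
    by_cases hb : b = x0
    · simp [ψ, ψ', hb]
    · simp [ψ, ψ', hb]
  have hinj : Function.Injective ψ := by
    intro a b hab
    have := congrArg ψ' hab
    rwa [← AlgHom.comp_apply, ← AlgHom.comp_apply, hcomp] at this
  obtain ⟨s, hs⟩ := exists_ringHom_of_transcendenceBasis ht ψ.toRingHom hinj
  refine ⟨s, ?_⟩
  have := hs (MvPolynomial.X x0)
  simp [ψ, x0] at this
  rw [this]
  simp

theorem exists_ringHom_ne_of_isAlgebraic {E : Type*} [Field E] [IsAlgClosed E]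
    {F : Type*} [Field F] [CharZero F] [Algebra F E]
    (x : E) (hx : IsAlgebraic F x) (hxF : x ∉ (algebraMap F E).range) :
    ∃ s : E →+* E, s x ≠ x := by
  classical
  have hint : IsIntegral F x := hx.isIntegral
  -- another root
  have hdeg : 2 ≤ (minpoly F x).natDegree := (minpoly.two_le_natDegree_iff hint).mpr hxF
  have hsep : (minpoly F x).Separable := (minpoly.irreducible hint).separable
  have hcard : Fintype.card ((minpoly F x).rootSet E) = (minpoly F x).natDegree :=
    Polynomial.card_rootSet_eq_natDegree hsep (IsAlgClosed.splits _)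
  obtain ⟨x', hx', hne⟩ : ∃ x' ∈ (minpoly F x).rootSet E, x' ≠ x := by
    by_contra hcon
    push Not at hcon
    have : Fintype.card ((minpoly F x).rootSet E) ≤ 1 := by
      rw [Fintype.card_le_one_iff]
      intro a b
      exact Subtype.ext ((hcon a a.2).trans (hcon b b.2).symm)
    omega
  have hx'root : aeval x' (minpoly F x) = 0 := (Polynomial.mem_rootSet.mp hx').2
  let K := algebraicClosure F E
  haveI : IsAlgClosed K := (algebraicClosure.isAlgClosure (F := F) (E := E)).isAlgClosed
  have hxK : x ∈ K := mem_algebraicClosure_iff.mpr hx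
  have hx'K : x' ∈ K := mem_algebraicClosure_iff.mpr
    ⟨minpoly F x, minpoly.ne_zero hint, hx'root⟩
  obtain ⟨τ, hτ⟩ : ∃ τ : K →ₐ[F] K, τ ⟨x, hxK⟩ = ⟨x', hx'K⟩ := by
    apply IntermediateField.exists_algHom_of_splits_of_aeval
    · intro s
      exact ⟨Algebra.IsIntegral.isIntegral s, IsAlgClosed.splits _⟩
    · have h1 : minpoly F (⟨x, hxK⟩ : K) = minpoly F x :=
        (minpoly.algebraMap_eq (algebraMap K E).injective (⟨x, hxK⟩ : K)).symm
      rw [h1]
      apply (algebraMap K E).injective
      rw [map_zero, ← Polynomial.aeval_algebraMap_apply]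
      exact hx'root
  obtain ⟨t, ht⟩ := exists_isTranscendenceBasis K E
  obtain ⟨s, hs⟩ := exists_ringHom_of_transcendenceBasis ht (MvPolynomial.map τ.toRingHom)
    (MvPolynomial.map_injective _ τ.toRingHom.injective)
  refine ⟨s, ?_⟩
  have := hs (MvPolynomial.C ⟨x, hxK⟩)
  simp only [MvPolynomial.map_C, MvPolynomial.aeval_C] at this
  have h2 : s x = x' := by
    have h3 : τ.toRingHom ⟨x, hxK⟩ = ⟨x', hx'K⟩ := hτ
    rw [h3] at this
    exact this
  rw [h2]
  exact hne

theorem exists_rat_of_forall_ringHom_fixed (x : ℂ) (h : ∀ s : ℂ →+* ℂ, s x = x) :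
    ∃ r : ℚ, (r : ℂ) = x := by
  by_contra hcon
  by_cases hx : IsAlgebraic ℚ x
  · obtain ⟨s, hs⟩ := exists_ringHom_ne_of_isAlgebraic (F := ℚ) x hx (by
      rintro ⟨r, hr⟩
      exact hcon ⟨r, by simpa using hr⟩)
    exact hs (h s)
  · obtain ⟨s, hs⟩ := exists_ringHom_ne_of_transcendental (F := ℚ) x hx
    exact hs (h s)

end Fermat.Agent.S23
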