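import Fermat.Agent.S23.Defs
import Fermat.Agent.S23.FixedField

set_option autoImplicit false

namespace Fermat.Agent.S23

open PowerSeries

theorem exists_ringHom_ne {x : ℂ} (hx : x ∉ Set.range ((↑) : ℚ → ℂ)) :
    ∃ σ : ℂ →+* ℂ, σ x ≠ x := by
  by_contra hcon
  push Not at hcon
  exact hx (exists_rat_of_forall_ringHom_fixed x hcon)

/-- The subring of power series with integer coefficients. -/
noncomputable def intPS : Subring (PowerSeries ℂ) := (PowerSeries.map (Int.castRingHom ℂ)).range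

theorem mem_intPS_iff {p : PowerSeries ℂ} : p ∈ intPS ↔ IsIntPS p := by
  constructor
  · rintro ⟨y, rfl⟩ n
    exact ⟨y.coeff n, by simp⟩
  · intro h
    choose m hm using h
    exact ⟨PowerSeries.mk m, by ext n; simp [hm]⟩

/-- `ℤ` is completely integrally closed (inside `ℂ`). -/
theorem int_of_forall_mul_pow_int {c : ℤ} (hc : c ≠ 0) {x : ℂ}
    (h : ∀ m : ℕ, ∃ y : ℤ, (c : ℂ) * x ^ m = y) : ∃ y : ℤ, x = y := by
  obtain ⟨y1, hy1⟩ := h 1
  have hc' : (c : ℂ) ≠ 0 := by exact_mod_cast hc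
  set r : ℚ := (y1 : ℚ) / c with hr
  have hxr : x = (r : ℂ) := by
    rw [hr]; push_cast; field_simp; linear_combination hy1
  have hden : ∀ m : ℕ, (r.den : ℤ) ^ m ∣ c := by
    intro m
    obtain ⟨y, hy⟩ := h m
    have h1 : (c : ℚ) * r ^ m = y := by
      have : ((c : ℚ) * r ^ m : ℚ) = ((y : ℚ) : ℂ) := by
        push_cast; rw [← hxr]; exact hy
      exact_mod_cast this
    have h2 : (c : ℚ) * (r.num : ℚ) ^ m = y * (r.den : ℚ) ^ m := by
      have hd : (r.den : ℚ) ≠ 0 := by exact_mod_cast r.den_ne_zero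
      have : r = r.num / r.den := (Rat.num_div_den r).symm
      rw [this, div_pow] at h1
      field_simp at h1
      linear_combination h1
    have h3 : c * r.num ^ m = y * (r.den : ℤ) ^ m := by exact_mod_cast h2
    have hcop : IsCoprime ((r.den : ℤ) ^ m) (r.num ^ m) := by
      apply IsCoprime.pow
      rw [Int.isCoprime_iff_gcd_eq_one]
      have := r.reduced
      rw [Int.gcd_comm]
      simpa [Int.gcd, Nat.Coprime] using this
    exact hcop.dvd_of_dvd_mul_right ⟨y, by rw [h3]; ring⟩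
  have hden1 : r.den = 1 := by
    by_contra hne
    have h2 : 2 ≤ r.den := by
      have := r.den_pos
      omega
    have h3 := hden c.natAbs
    have h4 : (r.den : ℤ) ^ c.natAbs ≤ |c| := by
      have := Int.le_of_dvd (abs_pos.mpr hc) ((dvd_abs _ _).mpr h3)
      exact this
    have h5 : (c.natAbs : ℤ) < (2 : ℤ) ^ c.natAbs := by exact_mod_cast Nat.lt_two_pow_self
    have h6 : (2 : ℤ) ^ c.natAbs ≤ (r.den : ℤ) ^ c.natAbs := by
      apply pow_le_pow_left₀ (by norm_num)
      exact_mod_cast h2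
    have h7 : |c| = c.natAbs := Int.abs_eq_natAbs c
    omega
  refine ⟨r.num, ?_⟩
  rw [hxr]
  have : r = r.num := by
    conv_lhs => rw [← Rat.num_div_den r, hden1]
    simp
  exact_mod_cast congrArg (fun q : ℚ => (q : ℂ)) this

/-- `ℤ⟦q⟧` is completely integrally closed inside `ℂ⟦q⟧`. -/
theorem mem_intPS_of_forall_mul_pow {c F : PowerSeries ℂ} (hc : c ∈ intPS) (hc0 : c ≠ 0)
    (h : ∀ m : ℕ, c * F ^ m ∈ intPS) : F ∈ intPS := by
  classical
  rw [mem_intPS_iff]
  by_contra hcon
  unfold IsIntPS at hcon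
  push Not at hcon
  -- minimal bad index
  let t := Nat.find hcon
  have ht : ∀ m : ℤ, F.coeff t ≠ m := Nat.find_spec hcon
  have hlt : ∀ n < t, ∃ m : ℤ, F.coeff n = m := by
    intro n hn
    have := Nat.find_min hcon hn
    push Not at this
    exact this
  -- truncation
  let F0 : PowerSeries ℂ := PowerSeries.mk fun n => if n < t then F.coeff n else 0
  have hF0 : F0 ∈ intPS := by
    rw [mem_intPS_iff]
    intro n
    by_cases hn : n < t
    · obtain ⟨m, hm⟩ := hlt n hn
      exact ⟨m, by simp [F0, hn, hm]⟩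
    · exact ⟨0, by simp [F0, hn]⟩
  have hF1 : ∀ m : ℕ, c * (F - F0) ^ m ∈ intPS := by
    intro m
    rw [sub_eq_add_neg, add_pow, Finset.mul_sum]
    refine Subring.sum_mem _ fun j _ => ?_
    have : c * (F ^ j * (-F0) ^ (m - j) * (m.choose j : PowerSeries ℂ)) =
        (c * F ^ j) * (-F0) ^ (m - j) * (m.choose j : PowerSeries ℂ) := by ring
    rw [this]
    exact Subring.mul_mem _ (Subring.mul_mem _ (h j) (Subring.pow_mem _ (Subring.neg_mem _ hF0) _))
      (natCast_mem _ _)
  obtain ⟨F2, hF2⟩ : (X : PowerSeries ℂ) ^ t ∣ F - F0 := by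
    rw [PowerSeries.X_pow_dvd_iff]
    intro n hn
    simp [F0, hn]
  have hF2c : PowerSeries.constantCoeff F2 = F.coeff t := by
    have h1 : (F - F0).coeff (0 + t) = F2.coeff 0 := by
      rw [hF2, PowerSeries.coeff_X_pow_mul]
    simpa [F0] using h1.symm
  -- order of c
  have hex : ∃ n, c.coeff n ≠ 0 := by
    by_contra hh
    push Not at hh
    exact hc0 (PowerSeries.ext (by simpa using hh))
  let s := Nat.find hex
  have hs : c.coeff s ≠ 0 := Nat.find_spec hex
  obtain ⟨c2, hc2⟩ : (X : PowerSeries ℂ) ^ s ∣ c := by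
    rw [PowerSeries.X_pow_dvd_iff]
    intro n hn
    have := Nat.find_min hex hn
    push Not at this
    exact this
  have hc2c : PowerSeries.constantCoeff c2 = c.coeff s := by
    have h1 : c.coeff (0 + s) = c2.coeff 0 := by
      conv_lhs => rw [hc2, PowerSeries.coeff_X_pow_mul]
    simpa using h1.symm
  obtain ⟨cs, hcs⟩ := (mem_intPS_iff.mp hc) s
  have hcs0 : cs ≠ 0 := by
    rintro rfl
    exact hs (by simpa using hcs)
  obtain ⟨y, hy⟩ := int_of_forall_mul_pow_int hcs0 (x := F.coeff t) (by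
    intro m
    obtain ⟨y, hy⟩ := (mem_intPS_iff.mp (hF1 m)) (0 + (s + t * m))
    refine ⟨y, ?_⟩
    rw [← hy, hF2]
    have : c * (X ^ t * F2) ^ m = X ^ (s + t * m) * (c2 * F2 ^ m) := by
      conv_lhs => rw [hc2]
      rw [mul_pow, pow_add, pow_mul]; ring
    rw [this, PowerSeries.coeff_X_pow_mul, PowerSeries.coeff_zero_eq_constantCoeff_apply, map_mul,
      map_pow, hc2c, hF2c, hcs])
  exact ht y hy

theorem isIntPS_of_integral_of_frac (F H G : PowerSeries ℂ) (a : ℕ → PowerSeries ℂ) (n : ℕ)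
    (hH : IsIntPS H) (hH0 : H ≠ 0) (hG : IsIntPS G) (ha : ∀ i, IsIntPS (a i))
    (h1 : H * F = G)
    (h2 : F ^ (n + 1) + ∑ i ∈ Finset.range (n + 1), a i * F ^ (n - i) = 0) : IsIntPS F := by
  rw [← mem_intPS_iff] at hH hG ⊢
  have ha' : ∀ i, a i ∈ intPS := fun i => mem_intPS_iff.mpr (ha i)
  refine mem_intPS_of_forall_mul_pow (c := H ^ n) (Subring.pow_mem _ hH n) (pow_ne_zero _ hH0) ?_
  intro m
  induction m using Nat.strong_induction_on with
  | _ m ih =>
    by_cases hm : m ≤ n
    · have : H ^ n * F ^ m = H ^ (n - m) * G ^ m := by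
        rw [← h1, mul_pow, ← mul_assoc, ← pow_add, Nat.sub_add_cancel hm]
      rw [this]
      exact Subring.mul_mem _ (Subring.pow_mem _ hH _) (Subring.pow_mem _ hG _)
    · push Not at hm
      obtain ⟨d, rfl⟩ : ∃ d, m = (n + 1) + d := ⟨m - (n + 1), by omega⟩
      have h3 : F ^ (n + 1) = - ∑ i ∈ Finset.range (n + 1), a i * F ^ (n - i) :=
        eq_neg_of_add_eq_zero_left h2
      have : H ^ n * F ^ (n + 1 + d) =
          - ∑ i ∈ Finset.range (n + 1), a i * (H ^ n * F ^ (n - i + d)) := by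
        rw [pow_add, h3, neg_mul, mul_neg, Finset.sum_mul, Finset.mul_sum]
        congr 1
        refine Finset.sum_congr rfl fun i _ => ?_
        rw [pow_add]; ring
      rw [this]
      refine Subring.neg_mem _ (Subring.sum_mem _ fun i hi => ?_)
      exact Subring.mul_mem _ (ha' i) (ih _ (by omega))

end Fermat.Agent.S23
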