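import Mathlib

set_option autoImplicit false
set_option linter.unusedSectionVars false
open UpperHalfPlane ModularForm CongruenceSubgroup SlashInvariantForm Matrix.SpecialLinearGroup
open scoped MatrixGroups ModularForm Manifold

namespace Fermat.Agent.S23

noncomputable section

/-- `F` is (the underlying function of) a modular form of weight `k` and level `Γ`. -/
def IsMF (Γ : Subgroup (GL (Fin 2) ℝ)) (k : ℤ) (F : ℍ → ℂ) : Prop :=
  ∃ G : ModularForm Γ k, ⇑G = F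

namespace IsMF

variable {Γ : Subgroup (GL (Fin 2) ℝ)} {k l m : ℤ} {F G : ℍ → ℂ}

lemma coe (f : ModularForm Γ k) : IsMF Γ k f := ⟨f, rfl⟩

lemma zero : IsMF Γ k 0 := ⟨0, rfl⟩

lemma add (hF : IsMF Γ k F) (hG : IsMF Γ k G) : IsMF Γ k (F + G) := by
  obtain ⟨f, rfl⟩ := hF
  obtain ⟨g, rfl⟩ := hG
  exact ⟨f + g, rfl⟩

lemma smul [Γ.HasDetOne] (c : ℂ) (hF : IsMF Γ k F) : IsMF Γ k (c • F) := by
  obtain ⟨f, rfl⟩ := hF
  exact ⟨c • f, rfl⟩

lemma mul [Γ.HasDetPlusMinusOne] (hF : IsMF Γ k F) (hG : IsMF Γ l G) (h : k + l = m) :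
    IsMF Γ m (F * G) := by
  obtain ⟨f, rfl⟩ := hF
  obtain ⟨g, rfl⟩ := hG
  subst h
  exact ⟨f.mul g, rfl⟩

lemma one [Γ.HasDetPlusMinusOne] (h : k = 0) : IsMF Γ k 1 := by
  subst h
  exact ⟨1, rfl⟩

lemma pow [Γ.HasDetPlusMinusOne] (hF : IsMF Γ k F) (n : ℕ) (h : (n : ℤ) * k = m) :
    IsMF Γ m (F ^ n) := by
  obtain ⟨f, rfl⟩ := hF
  subst h
  exact ⟨f.pow n, ModularForm.coe_pow f n⟩

lemma sum {ι : Type*} (s : Finset ι) (F : ι → ℍ → ℂ) (h : ∀ i ∈ s, IsMF Γ k (F i)) :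
    IsMF Γ k (∑ i ∈ s, F i) := by
  classical
  induction s using Finset.induction_on with
  | empty => simpa using zero
  | insert a s ha ih =>
    rw [Finset.sum_insert ha]
    exact (h a (Finset.mem_insert_self a s)).add
      (ih fun i hi => h i (Finset.mem_insert_of_mem hi))

end IsMF

section
open Polynomial

theorem lagrange_identity {ι : Type*} [Fintype ι] [DecidableEq ι] (x y : ι → ℂ) (i₀ : ι) :
    ∑ a ∈ Finset.range (Fintype.card ι),
      (∑ i ∈ Finset.Icc (a + 1) (Fintype.card ι),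
        ((-1) ^ (Fintype.card ι - i) * (Finset.univ.val.map x).esymm (Fintype.card ι - i)) *
          ∑ q, y q * x q ^ (i - (a + 1))) * x i₀ ^ a
      = y i₀ * ∏ q ∈ Finset.univ.erase i₀, (x i₀ - x q) := by
  set Φ : Polynomial ℂ := ∏ q, (X - C (x q)) with hΦ
  have hdeg : Φ.natDegree = Fintype.card ι := by
    rw [hΦ, natDegree_finsetProd_X_sub_C_eq_card, Finset.card_univ]
  have hcoeff : ∀ i ≤ Fintype.card ι, Φ.coeff i =
      (-1) ^ (Fintype.card ι - i) * (Finset.univ.val.map x).esymm (Fintype.card ι - i) := by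
    intro i hi
    have := Multiset.prod_X_sub_C_coeff (Finset.univ.val.map x) (k := i) (by simpa using hi)
    rw [Multiset.map_map, Multiset.card_map] at this
    exact this
  have hP : ∀ q, ∏ q' ∈ Finset.univ.erase q, (X - C (x q')) = Φ /ₘ (X - C (x q)) := by
    intro q
    rw [hΦ, ← Finset.mul_prod_erase Finset.univ _ (Finset.mem_univ q),
      mul_divByMonic_cancel_left _ (monic_X_sub_C _)]
  have hPdeg : ∀ q, (∏ q' ∈ Finset.univ.erase q, (X - C (x q'))).natDegree < Fintype.card ι := by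
    intro q
    rw [natDegree_finsetProd_X_sub_C_eq_card, Finset.card_erase_of_mem (Finset.mem_univ q),
      Finset.card_univ]
    exact Nat.sub_lt (Fintype.card_pos_iff.mpr ⟨q⟩) one_pos
  have hmain : ∑ q, y q * (∏ q' ∈ Finset.univ.erase q, (X - C (x q'))).eval (x i₀) =
      y i₀ * ∏ q ∈ Finset.univ.erase i₀, (x i₀ - x q) := by
    rw [Finset.sum_eq_single i₀]
    · simp [eval_prod]
    · intro q _ hq
      rw [eval_prod, Finset.prod_eq_zero (i := i₀) (by simp [Ne.symm hq]) (by simp), mul_zero]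
    · simp
  rw [← hmain]
  simp_rw [eval_eq_sum_range' (hPdeg _), hP, coeff_divByMonic_X_sub_C, hdeg]
  simp_rw [Finset.mul_sum, Finset.sum_mul]
  rw [Finset.sum_comm]
  refine Finset.sum_congr rfl fun a _ => ?_
  rw [Finset.sum_comm]
  refine Finset.sum_congr rfl fun q _ => ?_
  rw [Finset.mul_sum]
  refine Finset.sum_congr rfl fun i hi => ?_
  rw [← hcoeff i (Finset.mem_Icc.mp hi).2]
  ring

end

variable {𝒢 : Subgroup (GL (Fin 2) ℝ)}

local notation "𝒬" => 𝒮ℒ ⧸ (𝒢.subgroupOf 𝒮ℒ)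
local notation "q₀" => (QuotientGroup.mk (1 : 𝒮ℒ) : 𝒮ℒ ⧸ (𝒢.subgroupOf 𝒮ℒ))

/-- every translate `quotientFunc f q` is a slash by an element of `SL(2,ℤ)`, uniformly in `f`. -/
lemma exists_SL_rep (q : 𝒬) : ∃ γ : SL(2, ℤ), (q = q₀ ↔ mapGL ℝ γ ∈ 𝒢) ∧
    ∀ {k : ℤ} (f : ModularForm 𝒢 k), quotientFunc f q = ⇑f ∣[k] γ := by
  induction q using Quotient.inductionOn with
  | h r =>
    obtain ⟨r, γ, rfl⟩ := r
    refine ⟨γ⁻¹, ?_, fun {k} f => ?_⟩
    · rw [eq_comm]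
      change (QuotientGroup.mk _ : 𝒬) = QuotientGroup.mk _ ↔ _
      rw [QuotientGroup.eq]
      simp [Subgroup.mem_subgroupOf]
    · rw [quotientFunc_mk, SL_slash, map_inv]
      rfl

lemma slash_pow_SL2 (f : ℍ → ℂ) (k : ℤ) (γ : SL(2, ℤ)) (n : ℕ) :
    (f ^ n) ∣[(n : ℤ) * k] γ = (f ∣[k] γ) ^ n := by
  induction n with
  | zero => simpa using is_invariant_one γ
  | succ n ih =>
    have : ((n + 1 : ℕ) : ℤ) * k = (n : ℤ) * k + k := by push_cast; ring
    rw [this, pow_succ, mul_slash_SL2, ih, pow_succ]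

variable [𝒢.IsArithmetic] [𝒢.HasDetOne]

local instance instFintypeQ : Fintype 𝒬 := Fintype.ofFinite _

/-- `∑_q f_q θ_q^b` is a level one form. -/
lemma isMF_trace_mul_pow {k w : ℤ} (f : ModularForm 𝒢 k) (θ : ModularForm 𝒢 w) (b : ℕ) {m : ℤ}
    (hm : k + b * w = m) :
    IsMF 𝒮ℒ m (∑ q : 𝒬, quotientFunc f q * quotientFunc θ q ^ b) := by
  subst hm
  refine ⟨ModularForm.trace 𝒮ℒ (f.mul (θ.pow b)), ?_⟩
  rw [ModularForm.coe_trace]
  refine Finset.sum_congr rfl fun q _ => ?_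
  obtain ⟨γ, -, hγ⟩ := exists_SL_rep q
  rw [hγ, hγ, hγ, ModularForm.coe_mul, mul_slash_SL2, ModularForm.coe_pow, slash_pow_SL2]

/-- the elementary symmetric functions of the translates of `θ`. -/
def esymF {w : ℤ} (θ : ModularForm 𝒢 w) (j : ℕ) : ℍ → ℂ := fun z =>
  (Finset.univ.val.map (fun q : 𝒬 => quotientFunc θ q z)).esymm j

lemma isMF_esymF {w : ℤ} (θ : ModularForm 𝒢 w) (j : ℕ) : IsMF 𝒮ℒ (j * w) (esymF θ j) := by
  induction j using Nat.strong_induction_on with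
  | _ j ih =>
    rcases Nat.eq_zero_or_pos j with rfl | hj
    · have : esymF θ 0 = 1 := by
        ext z; simp [esymF, Multiset.esymm]
      rw [this]
      exact IsMF.one (by simp)
    · have key : esymF θ j = ((j : ℂ)⁻¹ * (-1) ^ (j + 1)) •
          ∑ a ∈ Finset.HasAntidiagonal.antidiagonal j with a.1 < j, ((-1 : ℂ) ^ a.1) • (esymF θ a.1 *
            ∑ q : 𝒬, quotientFunc (1 : ModularForm 𝒢 0) q * quotientFunc θ q ^ a.2) := by
        ext z
        have h := congrArg (MvPolynomial.aeval (fun q : 𝒬 => quotientFunc θ q z))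
          (MvPolynomial.mul_esymm_eq_sum 𝒬 ℂ j)
        simp only [map_mul, map_natCast, map_pow, map_neg, map_one, map_sum,
          MvPolynomial.aeval_esymm_eq_multiset_esymm, MvPolynomial.psum, MvPolynomial.aeval_X] at h
        have hj' : (j : ℂ) ≠ 0 := by exact_mod_cast hj.ne'
        have h1 : ∀ q : 𝒬, quotientFunc (1 : ModularForm 𝒢 0) q = 1 := by
          intro q
          obtain ⟨γ, -, hγ⟩ := exists_SL_rep q
          rw [hγ, ModularForm.one_coe_eq_one, is_invariant_one]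
        simp only [h1, one_mul, Pi.smul_apply, Finset.sum_apply, Pi.mul_apply, Pi.pow_apply,
          smul_eq_mul, esymF]
        rw [mul_assoc, eq_inv_mul_iff_mul_eq₀ hj', h]
        simp only [mul_assoc]
      rw [key]
      refine IsMF.smul _ (IsMF.sum _ _ fun a ha => IsMF.smul _ ?_)
      rw [Finset.mem_filter, Finset.HasAntidiagonal.mem_antidiagonal] at ha
      refine (ih a.1 ha.2).mul (isMF_trace_mul_pow 1 θ a.2 rfl) ?_
      rw [← ha.1]; push_cast; ring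

/-- the interpolation coefficients. -/
def interpF {k w : ℤ} (f : ModularForm 𝒢 k) (θ : ModularForm 𝒢 w) (a : ℕ) : ℍ → ℂ :=
  ∑ i ∈ Finset.Icc (a + 1) (Fintype.card 𝒬), ((-1 : ℂ) ^ (Fintype.card 𝒬 - i)) •
    (esymF θ (Fintype.card 𝒬 - i) * ∑ q : 𝒬, quotientFunc f q * quotientFunc θ q ^ (i - (a + 1)))

lemma isMF_interpF {k w : ℤ} (f : ModularForm 𝒢 k) (θ : ModularForm 𝒢 w) (a : ℕ) {m : ℤ}
    (hm : k + w * ((Fintype.card 𝒬 : ℤ) - 1 - a) = m) : IsMF 𝒮ℒ m (interpF f θ a) := by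
  refine IsMF.sum _ _ fun i hi => IsMF.smul _ ?_
  rw [Finset.mem_Icc] at hi
  refine (isMF_esymF θ _).mul (isMF_trace_mul_pow f θ _ rfl) ?_
  rw [← hm, Nat.cast_sub hi.2, Nat.cast_sub hi.1]
  push_cast
  ring

open Classical in
lemma interpF_identity {k w : ℤ} (f : ModularForm 𝒢 k) (θ : ModularForm 𝒢 w) (z : ℍ) :
    ∑ a ∈ Finset.range (Fintype.card 𝒬), interpF f θ a z * θ z ^ a =
      f z * ∏ q ∈ Finset.univ.erase q₀, (θ z - quotientFunc θ q z) := by
  have h := lagrange_identity (fun q : 𝒬 => quotientFunc θ q z) (fun q : 𝒬 => quotientFunc f q z) q₀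
  have h1 : ∀ {k : ℤ} (g : ModularForm 𝒢 k), quotientFunc g q₀ z = g z := by
    intro k g
    have : quotientFunc g q₀ = ⇑g ∣[k] ((1 : 𝒮ℒ) : GL (Fin 2) ℝ)⁻¹ := quotientFunc_mk g 1
    rw [this]; simp
  simp only [h1] at h
  rw [← h]
  refine Finset.sum_congr rfl fun a _ => ?_
  congr 1
  simp [interpF, esymF, mul_assoc]

lemma esymF_identity {k : ℤ} (f : ModularForm 𝒢 k) (z : ℍ) :
    ∑ j ∈ Finset.range (Fintype.card 𝒬 + 1),
      (-1 : ℂ) ^ j * (esymF f j z * f z ^ (Fintype.card 𝒬 - j)) = 0 := by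
  have h := congrArg (Polynomial.eval (f z)) (Multiset.prod_X_sub_X_eq_sum_esymm
    (Finset.univ.val.map (fun q : 𝒬 => quotientFunc f q z)))
  rw [Multiset.map_map, Multiset.card_map, Polynomial.eval_multiset_prod, Multiset.map_map,
    Polynomial.eval_finsetSum] at h
  have h0 : (Multiset.map (Polynomial.eval (f z) ∘ (fun t => Polynomial.X - Polynomial.C t) ∘
      fun q : 𝒬 => quotientFunc f q z) Finset.univ.val).prod = 0 := by
    apply Multiset.prod_eq_zero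
    rw [Multiset.mem_map]
    refine ⟨q₀, Finset.mem_univ_val _, ?_⟩
    have : quotientFunc f q₀ = ⇑f ∣[k] ((1 : 𝒮ℒ) : GL (Fin 2) ℝ)⁻¹ := quotientFunc_mk f 1
    simp [this]
  rw [h0] at h
  rw [h]
  refine Finset.sum_congr rfl fun j _ => ?_
  simp [esymF]

lemma isZeroAtImInfty_esymF {k : ℤ} (f : CuspForm 𝒢 k) {j : ℕ} (hj : 1 ≤ j) :
    IsZeroAtImInfty (esymF (ModularFormClass.modularForm f) j) := by
  have h : esymF (ModularFormClass.modularForm f) j = fun z =>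
      ∑ t ∈ Finset.powersetCard j (Finset.univ : Finset 𝒬),
        ∏ q ∈ t, quotientFunc (ModularFormClass.modularForm f) q z := by
    ext z
    simp only [esymF]
    rw [Finset.esymm_map_val]
  rw [h, IsZeroAtImInfty, Filter.ZeroAtFilter]
  rw [show (0 : ℂ) = ∑ t ∈ Finset.powersetCard j (Finset.univ : Finset 𝒬), 0 by simp]
  refine tendsto_finsetSum _ fun t ht => ?_
  rw [Finset.mem_powersetCard] at ht
  have h0 : (0 : ℂ) = ∏ q ∈ t, (0 : ℂ) := by
    rw [Finset.prod_const, ht.2, zero_pow (by omega)]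
  rw [h0]
  refine tendsto_finsetProd _ fun q _ => ?_
  obtain ⟨γ, -, hγ⟩ := exists_SL_rep q
  rw [hγ]
  exact CuspFormClass.zero_at_infty_slash f γ

lemma coeff_zero_eq_zero_of_isZeroAtImInfty {k : ℤ} (F : ModularForm 𝒮ℒ k)
    (h : IsZeroAtImInfty F) : (qExpansion 1 F).coeff 0 = 0 := by
  rw [qExpansion_coeff_zero one_pos
    (ModularFormClass.analyticAt_cuspFunction_zero _ one_pos one_mem_strictPeriods_SL)
    (SlashInvariantFormClass.periodic_comp_ofComplex _ one_mem_strictPeriods_SL)]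
  exact h.valueAtInfty_eq_zero

open Classical in
lemma exists_prod_ne_zero {w : ℤ} (θ : ModularForm 𝒢 w)
    (hθ : ∀ γ : SL(2, ℤ), mapGL ℝ γ ∉ 𝒢 → (⇑θ ∣[w] γ) ≠ ⇑θ) :
    ∃ z, ∏ q ∈ Finset.univ.erase q₀, (θ z - quotientFunc θ q z) ≠ 0 := by
  by_contra hcon
  push Not at hcon
  have h0 : ∏ q ∈ Finset.univ.erase q₀, (⇑θ - quotientFunc θ q) = 0 := by
    ext z
    simpa using hcon z
  rw [UpperHalfPlane.prod_eq_zero_iff] at h0
  · obtain ⟨q, hq, hq0⟩ := h0
    obtain ⟨γ, hγ1, hγ⟩ := exists_SL_rep q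
    rw [hγ, sub_eq_zero] at hq0
    refine hθ γ (fun hmem => ?_) hq0.symm
    exact (Finset.mem_erase.mp hq).1 (hγ1.mpr hmem)
  · intro q _
    obtain ⟨γ, -, hγ⟩ := exists_SL_rep q
    rw [hγ]
    exact θ.holo'.sub (θ.holo'.slash w _)

/-- The structure theorem, for a general arithmetic subgroup. -/
theorem structure_thm_general {k w : ℤ} (θ : ModularForm 𝒢 w)
    (hθ : ∀ γ : SL(2, ℤ), mapGL ℝ γ ∉ 𝒢 → (⇑θ ∣[w] γ) ≠ ⇑θ) (f : CuspForm 𝒢 k) :
    ∃ (n : ℕ) (e : (i : ℕ) → ModularForm 𝒮ℒ (i * k))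
      (C : (a : ℕ) → ModularForm 𝒮ℒ (w * ((n : ℤ) - a)))
      (B : (a : ℕ) → ModularForm 𝒮ℒ (k + w * ((n : ℤ) - a))),
      (∀ i, 1 ≤ i → (qExpansion 1 (e i)).coeff 0 = 0) ∧
      (∀ z, f z ^ (n + 1) + ∑ i ∈ Finset.range (n + 1), e (i + 1) z * f z ^ (n - i) = 0) ∧
      (∀ z, f z * ∑ a ∈ Finset.range (n + 1), C a z * θ z ^ a =
        ∑ a ∈ Finset.range (n + 1), B a z * θ z ^ a) ∧
      (∃ z, ∑ a ∈ Finset.range (n + 1), C a z * θ z ^ a ≠ 0) := by
  classical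
  obtain ⟨n, hn⟩ : ∃ n, Fintype.card 𝒬 = n + 1 :=
    ⟨Fintype.card 𝒬 - 1, (Nat.sub_add_cancel (Fintype.card_pos_iff.mpr ⟨q₀⟩)).symm⟩
  set f' : ModularForm 𝒢 k := ModularFormClass.modularForm f with hf'
  have hf'z : ∀ z, f' z = f z := fun z => rfl
  have he : ∀ i : ℕ, IsMF 𝒮ℒ (i * k) (((-1 : ℂ) ^ i) • esymF f' i) :=
    fun i => (isMF_esymF f' i).smul _
  have hC : ∀ a : ℕ, IsMF 𝒮ℒ (w * ((n : ℤ) - a)) (interpF (1 : ModularForm 𝒢 0) θ a) :=
    fun a => isMF_interpF 1 θ a (by rw [hn]; push_cast; ring)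
  have hB : ∀ a : ℕ, IsMF 𝒮ℒ (k + w * ((n : ℤ) - a)) (interpF f' θ a) :=
    fun a => isMF_interpF f' θ a (by rw [hn]; push_cast; ring)
  choose e he using he
  choose C hC using hC
  choose B hB using hB
  refine ⟨n, e, C, B, fun i hi => ?_, fun z => ?_, fun z => ?_, ?_⟩
  · apply coeff_zero_eq_zero_of_isZeroAtImInfty
    rw [he]
    have := isZeroAtImInfty_esymF f hi
    rw [IsZeroAtImInfty, Filter.ZeroAtFilter] at this ⊢
    have h2 := this.const_mul ((-1 : ℂ) ^ i)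
    rw [mul_zero] at h2
    exact h2
  · have h := esymF_identity f' z
    rw [hn, Finset.sum_range_succ'] at h
    simp only [he, Pi.smul_apply, smul_eq_mul]
    rw [add_comm]
    have h00 : esymF f' 0 z = 1 := by simp [esymF, Multiset.esymm]
    simp only [pow_zero, one_mul, h00, Nat.sub_zero, hf'z, Nat.add_sub_add_right] at h
    rw [← h]
    congr 1
    refine Finset.sum_congr rfl fun i _ => ?_
    ring
  · have h1 := interpF_identity (1 : ModularForm 𝒢 0) θ z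
    have h2 := interpF_identity f' θ z
    rw [hn] at h1 h2
    simp only [hC, hB]
    rw [h1, h2, hf'z]
    simp [ModularForm.one_coe_eq_one]
  · obtain ⟨z, hz⟩ := exists_prod_ne_zero θ hθ
    refine ⟨z, ?_⟩
    have h1 := interpF_identity (1 : ModularForm 𝒢 0) θ z
    rw [hn] at h1
    simp only [hC]
    rw [h1]
    simpa [ModularForm.one_coe_eq_one] using hz

end

/-- **L2**: the structure theorem for `Γ₀(N)`. -/
theorem structure_thm (N : ℕ) [NeZero N] (k : ℤ) (θ : ModularForm (Gamma0 N) 4)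
    (hθ : ∀ γ : SL(2, ℤ), γ ∉ Gamma0 N → (⇑θ ∣[(4 : ℤ)] γ) ≠ ⇑θ)
    (f : CuspForm (Gamma0 N) k) :
    ∃ (n : ℕ) (e : (i : ℕ) → ModularForm 𝒮ℒ (i * k))
      (C : (a : ℕ) → ModularForm 𝒮ℒ (4 * ((n : ℤ) - a)))
      (B : (a : ℕ) → ModularForm 𝒮ℒ (k + 4 * ((n : ℤ) - a))),
      (∀ i, 1 ≤ i → (qExpansion 1 (e i)).coeff 0 = 0) ∧
      (∀ z, f z ^ (n + 1) + ∑ i ∈ Finset.range (n + 1), e (i + 1) z * f z ^ (n - i) = 0) ∧
      (∀ z, f z * ∑ a ∈ Finset.range (n + 1), C a z * θ z ^ a =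
        ∑ a ∈ Finset.range (n + 1), B a z * θ z ^ a) ∧
      (∃ z, ∑ a ∈ Finset.range (n + 1), C a z * θ z ^ a ≠ 0) := by
  refine structure_thm_general θ (fun γ hγ => hθ γ fun hmem => hγ ?_) f
  exact Subgroup.mem_map_of_mem _ hmem

end Fermat.Agent.S23
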