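import Fermat.Agent.S23.Level1
import Fermat.Agent.S23.PowerSeriesCIC
import Fermat.Agent.S23.Sym
import Fermat.Agent.S23.Nice

/-! Bounded denominators: the pure algebra part (`ℚ`-linear functional trick). -/

set_option autoImplicit false

namespace Fermat.Agent.S23

noncomputable section

open PowerSeries

/-- power series with rational coefficients -/
def IsRatPS (p : PowerSeries ℂ) : Prop := ∀ n, ∃ r : ℚ, p.coeff n = r

theorem IsIntPS.isRatPS {p : PowerSeries ℂ} (hp : IsIntPS p) : IsRatPS p := fun n => by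
  obtain ⟨a, ha⟩ := hp n
  exact ⟨a, by simp [ha]⟩

/-- the `ℂ`-span of the integral power series -/
def CZ : Submodule ℂ (PowerSeries ℂ) := Submodule.span ℂ {p | IsIntPS p}

theorem IsIntPS.mem_CZ {p : PowerSeries ℂ} (hp : IsIntPS p) : p ∈ CZ := Submodule.subset_span hp

theorem CZ_mul {p q : PowerSeries ℂ} (hp : p ∈ CZ) (hq : q ∈ CZ) : p * q ∈ CZ := by
  induction hp using Submodule.span_induction with
  | mem x hx =>
    induction hq using Submodule.span_induction with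
    | mem y hy => exact (IsIntPS.mul hx hy).mem_CZ
    | zero => simpa using CZ.zero_mem
    | add y z _ _ hy hz => rw [mul_add]; exact CZ.add_mem hy hz
    | smul c y _ hy => rw [mul_smul_comm]; exact CZ.smul_mem c hy
  | zero => simpa using CZ.zero_mem
  | add y z _ _ hy hz => rw [add_mul]; exact CZ.add_mem hy hz
  | smul c y _ hy => rw [smul_mul_assoc]; exact CZ.smul_mem c hy

theorem CZ_pow {p : PowerSeries ℂ} (hp : p ∈ CZ) (n : ℕ) : p ^ n ∈ CZ := by
  induction n with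
  | zero => simpa using IsIntPS.one.mem_CZ
  | succ n ih => rw [pow_succ]; exact CZ_mul ih hp

/-- coefficientwise application of a `ℚ`-linear functional -/
def Lam (l : ℂ →ₗ[ℚ] ℚ) (p : PowerSeries ℂ) : PowerSeries ℂ :=
  PowerSeries.mk fun n => ((l (p.coeff n) : ℚ) : ℂ)

@[simp] theorem coeff_Lam (l : ℂ →ₗ[ℚ] ℚ) (p : PowerSeries ℂ) (n : ℕ) :
    (Lam l p).coeff n = ((l (p.coeff n) : ℚ) : ℂ) := by
  simp [Lam]

theorem Lam_zero (l : ℂ →ₗ[ℚ] ℚ) : Lam l 0 = 0 := by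
  ext n; simp

theorem Lam_add (l : ℂ →ₗ[ℚ] ℚ) (p q : PowerSeries ℂ) : Lam l (p + q) = Lam l p + Lam l q := by
  ext n; simp

theorem Lam_sum (l : ℂ →ₗ[ℚ] ℚ) {ι : Type*} (s : Finset ι) (f : ι → PowerSeries ℂ) :
    Lam l (∑ i ∈ s, f i) = ∑ i ∈ s, Lam l (f i) := by
  ext n; simp [map_sum]

theorem lam_rat_mul (l : ℂ →ₗ[ℚ] ℚ) (r : ℚ) (z : ℂ) : l ((r : ℂ) * z) = r * l z := by
  have : (r : ℂ) * z = r • z := by
    rw [Rat.smul_def]
  rw [this, map_smul, smul_eq_mul]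

theorem Lam_mul_of_rat (l : ℂ →ₗ[ℚ] ℚ) {x : PowerSeries ℂ} (hx : IsRatPS x) (s : PowerSeries ℂ) :
    Lam l (x * s) = x * Lam l s := by
  ext n
  rw [coeff_Lam, PowerSeries.coeff_mul, PowerSeries.coeff_mul, map_sum, Rat.cast_sum]
  refine Finset.sum_congr rfl fun i _ => ?_
  obtain ⟨r, hr⟩ := hx i.1
  rw [hr, lam_rat_mul, coeff_Lam]
  push_cast
  rfl

theorem Lam_smul_of_rat (l : ℂ →ₗ[ℚ] ℚ) (c : ℂ) {p : PowerSeries ℂ} (hp : IsRatPS p) :
    Lam l (c • p) = ((l c : ℚ) : ℂ) • p := by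
  ext n
  obtain ⟨r, hr⟩ := hp n
  rw [coeff_Lam, PowerSeries.coeff_smul, PowerSeries.coeff_smul, hr, smul_eq_mul, smul_eq_mul,
    mul_comm c, lam_rat_mul]
  push_cast
  ring

theorem Lam_of_rat {l : ℂ →ₗ[ℚ] ℚ} (hl : l 1 = 1) {x : PowerSeries ℂ} (hx : IsRatPS x) :
    Lam l x = x := by
  ext n
  obtain ⟨r, hr⟩ := hx n
  have := lam_rat_mul l r 1
  rw [mul_one, hl, mul_one] at this
  rw [coeff_Lam, hr, this]

theorem exists_mul_Lam_smul_int (l : ℂ →ₗ[ℚ] ℚ) {s : PowerSeries ℂ} (hs : s ∈ CZ) :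
    ∀ c : ℂ, ∃ M : ℕ, M ≠ 0 ∧ IsIntPS ((M : ℂ) • Lam l (c • s)) := by
  induction hs using Submodule.span_induction with
  | mem x hx =>
    intro c
    refine ⟨(l c).den, (l c).den_nz, ?_⟩
    rw [Lam_smul_of_rat l c hx.isRatPS, smul_smul]
    have : (((l c).den : ℂ) * ((l c : ℚ) : ℂ)) = (((l c).num : ℤ) : ℂ) := by
      have := Rat.den_mul_eq_num (l c)
      exact_mod_cast congrArg (fun q : ℚ => (q : ℂ)) this
    rw [this]
    exact hx.int_smul _
  | zero =>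
    intro c
    exact ⟨1, one_ne_zero, by rw [smul_zero, Lam_zero, smul_zero]; exact IsIntPS.zero⟩
  | add y z _ _ hy hz =>
    intro c
    obtain ⟨M, hM, h1⟩ := hy c
    obtain ⟨M', hM', h2⟩ := hz c
    refine ⟨M * M', mul_ne_zero hM hM', ?_⟩
    rw [smul_add, Lam_add, smul_add]
    have e1 : ((M * M' : ℕ) : ℂ) • Lam l (c • y) = ((M' : ℤ) : ℂ) • ((M : ℂ) • Lam l (c • y)) := by
      rw [smul_smul]; push_cast; ring_nf
    have e2 : ((M * M' : ℕ) : ℂ) • Lam l (c • z) = ((M : ℤ) : ℂ) • ((M' : ℂ) • Lam l (c • z)) := by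
      rw [smul_smul]; push_cast; ring_nf
    rw [e1, e2]
    exact (h1.int_smul _).add (h2.int_smul _)
  | smul c' y _ hy =>
    intro c
    rw [smul_smul]
    exact hy (c * c')

theorem exists_mul_Lam_int (l : ℂ →ₗ[ℚ] ℚ) {s : PowerSeries ℂ} (hs : s ∈ CZ) :
    ∃ M : ℕ, M ≠ 0 ∧ IsIntPS ((M : ℂ) • Lam l s) := by
  simpa using exists_mul_Lam_smul_int l hs 1

/-- a common multiplier for finitely many elements of `CZ` -/
theorem exists_mul_Lam_int_finset (l : ℂ →ₗ[ℚ] ℚ) {ι : Type*} (t : Finset ι)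
    (s : ι → PowerSeries ℂ) (hs : ∀ i ∈ t, s i ∈ CZ) :
    ∃ M : ℕ, M ≠ 0 ∧ ∀ i ∈ t, IsIntPS ((M : ℂ) • Lam l (s i)) := by
  classical
  induction t using Finset.induction_on with
  | empty => exact ⟨1, one_ne_zero, by simp⟩
  | insert a t ha ih =>
    obtain ⟨M, hM, h1⟩ := ih fun i hi => hs i (Finset.mem_insert_of_mem hi)
    obtain ⟨M', hM', h2⟩ := exists_mul_Lam_int l (hs a (Finset.mem_insert_self a t))
    refine ⟨M * M', mul_ne_zero hM hM', fun i hi => ?_⟩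
    rcases Finset.mem_insert.mp hi with rfl | hi
    · have e2 : ((M * M' : ℕ) : ℂ) • Lam l (s i) = ((M : ℤ) : ℂ) • ((M' : ℂ) • Lam l (s i)) := by
        rw [smul_smul]; push_cast; ring_nf
      rw [e2]; exact h2.int_smul _
    · have e1 : ((M * M' : ℕ) : ℂ) • Lam l (s i) = ((M' : ℤ) : ℂ) • ((M : ℂ) • Lam l (s i)) := by
        rw [smul_smul]; push_cast; ring_nf
      rw [e1]; exact (h1 i hi).int_smul _

theorem exists_lam (z : ℂ) (hz : z ≠ 0) : ∃ l : ℂ →ₗ[ℚ] ℚ, l z = 1 := by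
  by_contra hcon
  push Not at hcon
  refine hz ((Module.forall_dual_apply_eq_zero_iff ℚ z).mp fun f => ?_)
  by_contra hf
  refine hcon ((f z)⁻¹ • f) ?_
  simp [hf]

theorem exists_Lam_ne_zero {s : PowerSeries ℂ} (hs : s ≠ 0) : ∃ l : ℂ →ₗ[ℚ] ℚ, Lam l s ≠ 0 := by
  obtain ⟨n, hn⟩ : ∃ n, s.coeff n ≠ 0 := by
    by_contra h
    push Not at h
    exact hs (PowerSeries.ext fun n => by simpa using h n)
  obtain ⟨l, hl⟩ := exists_lam _ hn
  refine ⟨l, fun h => ?_⟩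
  have := congrArg (fun p => PowerSeries.coeff n p) h
  simp [hl] at this

theorem IsRatPS.one : IsRatPS 1 := IsIntPS.one.isRatPS

theorem IsRatPS.mul {p q : PowerSeries ℂ} (hp : IsRatPS p) (hq : IsRatPS q) : IsRatPS (p * q) :=
  fun n => by
    rw [PowerSeries.coeff_mul]
    choose a ha using hp
    choose b hb using hq
    exact ⟨∑ i ∈ Finset.HasAntidiagonal.antidiagonal n, a i.1 * b i.2, by simp [ha, hb]⟩

theorem IsRatPS.pow {p : PowerSeries ℂ} (hp : IsRatPS p) (n : ℕ) : IsRatPS (p ^ n) := by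
  induction n with
  | zero => simpa using IsRatPS.one
  | succ n ih => rw [pow_succ]; exact ih.mul hp

theorem den_core (x : PowerSeries ℂ) (hx : IsRatPS x) (n : ℕ)
    (e : ℕ → PowerSeries ℂ) (he : ∀ i, e i ∈ CZ)
    (hrel : x ^ (n + 1) + ∑ i ∈ Finset.range (n + 1), e i * x ^ (n - i) = 0)
    (H G : PowerSeries ℂ) (hH : H ∈ CZ) (hH0 : H ≠ 0) (hG : G ∈ CZ) (hHG : H * x = G) :
    ∃ D : ℕ, D ≠ 0 ∧ IsIntPS ((D : ℂ) • x) := by
  obtain ⟨l1, hl1⟩ := exists_lam 1 one_ne_zero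
  obtain ⟨l2, hl2⟩ := exists_Lam_ne_zero hH0
  obtain ⟨M, hM, hMe⟩ := exists_mul_Lam_int_finset l1 (Finset.range (n + 1)) e fun i _ => he i
  obtain ⟨M1, hM1, hMH⟩ := exists_mul_Lam_int l2 hH
  obtain ⟨M2, hM2, hMG⟩ := exists_mul_Lam_int l2 hG
  -- the rationalised monic relation
  have hrel' : x ^ (n + 1) + ∑ i ∈ Finset.range (n + 1), Lam l1 (e i) * x ^ (n - i) = 0 := by
    have := congrArg (Lam l1) hrel
    rw [Lam_add, Lam_sum, Lam_zero, Lam_of_rat hl1 (hx.pow _)] at this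
    rw [← this]
    congr 1
    refine Finset.sum_congr rfl fun i _ => ?_
    rw [mul_comm (e i), Lam_mul_of_rat l1 (hx.pow _), mul_comm]
  have hHG' : Lam l2 H * x = Lam l2 G := by
    rw [← hHG, mul_comm H, Lam_mul_of_rat l2 hx, mul_comm]
  refine ⟨M, hM, ?_⟩
  refine isIntPS_of_integral_of_frac ((M : ℂ) • x) (((M1 * M2 : ℕ) : ℂ) • Lam l2 H) (((M * M1 * M2 : ℕ) : ℂ) • Lam l2 G)
    (fun i => if i < n + 1 then ((M : ℂ) ^ (i + 1)) • Lam l1 (e i) else 0) n ?_ ?_ ?_ ?_ ?_ ?_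
  · have : ((M1 * M2 : ℕ) : ℂ) • Lam l2 H = ((M2 : ℤ) : ℂ) • ((M1 : ℂ) • Lam l2 H) := by
      rw [smul_smul]; push_cast; ring_nf
    rw [this]; exact hMH.int_smul _
  · refine smul_ne_zero ?_ hl2
    exact_mod_cast mul_ne_zero hM1 hM2
  · have : ((M * M1 * M2 : ℕ) : ℂ) • Lam l2 G = ((M * M1 : ℤ) : ℂ) • ((M2 : ℂ) • Lam l2 G) := by
      rw [smul_smul]; push_cast; ring_nf
    rw [this]; exact hMG.int_smul _
  · intro i
    split_ifs with hi
    · have : ((M : ℂ) ^ (i + 1)) • Lam l1 (e i) = (((M : ℤ) ^ i : ℤ) : ℂ) • ((M : ℂ) • Lam l1 (e i)) := by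
        rw [smul_smul]; push_cast; ring_nf
      rw [this]; exact (hMe i (Finset.mem_range.mpr hi)).int_smul _
    · exact IsIntPS.zero
  · rw [smul_mul_smul_comm, hHG']
    congr 1
    push_cast; ring
  · have : ((M : ℂ) • x) ^ (n + 1) + ∑ i ∈ Finset.range (n + 1),
        (if i < n + 1 then ((M : ℂ) ^ (i + 1)) • Lam l1 (e i) else 0) * ((M : ℂ) • x) ^ (n - i) =
        ((M : ℂ) ^ (n + 1)) •
          (x ^ (n + 1) + ∑ i ∈ Finset.range (n + 1), Lam l1 (e i) * x ^ (n - i)) := by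
      rw [smul_add, Finset.smul_sum, smul_pow]
      congr 1
      refine Finset.sum_congr rfl fun i hi => ?_
      have hi' := Finset.mem_range.mp hi
      rw [if_pos hi', smul_pow, smul_mul_smul_comm, ← pow_add]
      congr 2
      omega
    rw [this, hrel', smul_zero]

open UpperHalfPlane ModularForm CongruenceSubgroup
open scoped MatrixGroups ModularForm Manifold

theorem qExpansion_levelOne_mem_CZ {k : ℤ} (F : ModularForm 𝒮ℒ k) : qExpansion 1 F ∈ CZ := by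
  have hF : F ∈ Submodule.span ℂ {F : ModularForm 𝒮ℒ k | IsIntPS (qExpansion 1 F)} := by
    rw [levelOne_span_int]; trivial
  induction hF using Submodule.span_induction with
  | mem x hx => exact IsIntPS.mem_CZ hx
  | zero => simpa [UpperHalfPlane.qExpansion_zero] using CZ.zero_mem
  | add y z _ _ hy hz =>
    rw [FunLike.coe_add, (isNice_levelOne y).qExpansion_add (isNice_levelOne z)]
    exact CZ.add_mem hy hz
  | smul c y _ hy =>
    rw [FunLike.coe_smul, (isNice_levelOne y).qExpansion_smul]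
    exact CZ.smul_mem c hy

/-- **L7**: bounded denominators, given a separating `θ` with integral `q`-expansion. -/
theorem bounded_denominators_of_theta (N : ℕ) [NeZero N] (k : ℤ) (θ : ModularForm (Gamma0 N) 4)
    (hθint : IsIntPS (qExpansion 1 θ))
    (hθ : ∀ γ : SL(2, ℤ), γ ∉ Gamma0 N → (⇑θ ∣[(4 : ℤ)] γ) ≠ ⇑θ)
    (f : CuspForm (Gamma0 N) k) (hf : ∀ n, ∃ r : ℚ, (qExpansion 1 f).coeff n = r) :
    ∃ D : ℕ, D ≠ 0 ∧ ∀ n, ∃ m : ℤ, (D : ℂ) * (qExpansion 1 f).coeff n = m := by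
  obtain ⟨n, e, C, B, -, hrel, hint, ⟨z0, hz0⟩⟩ := structure_thm N k θ hθ f
  have nf : IsNice f := isNice_cuspForm_Gamma0 f
  have nθ : IsNice θ := isNice_Gamma0 θ
  have ne : ∀ i, IsNice (e i) := fun i => isNice_levelOne (e i)
  have nC : ∀ i, IsNice (C i) := fun i => isNice_levelOne (C i)
  have nB : ∀ i, IsNice (B i) := fun i => isNice_levelOne (B i)
  -- functions
  set Hf : ℍ → ℂ := ∑ a ∈ Finset.range (n + 1), (C a : ℍ → ℂ) * (θ : ℍ → ℂ) ^ a with hHf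
  set Gf : ℍ → ℂ := ∑ a ∈ Finset.range (n + 1), (B a : ℍ → ℂ) * (θ : ℍ → ℂ) ^ a with hGf
  have nH : IsNice Hf := IsNice.sum _ fun a _ => (nC a).mul (nθ.pow a)
  have nG : IsNice Gf := IsNice.sum _ fun a _ => (nB a).mul (nθ.pow a)
  have hqH : qExpansion 1 Hf =
      ∑ a ∈ Finset.range (n + 1), qExpansion 1 (C a) * qExpansion 1 θ ^ a := by
    rw [hHf, IsNice.qExpansion_sum _ fun a _ => (nC a).mul (nθ.pow a)]
    exact Finset.sum_congr rfl fun a _ => by rw [(nC a).qExpansion_mul (nθ.pow a), nθ.qExpansion_pow]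
  have hqG : qExpansion 1 Gf =
      ∑ a ∈ Finset.range (n + 1), qExpansion 1 (B a) * qExpansion 1 θ ^ a := by
    rw [hGf, IsNice.qExpansion_sum _ fun a _ => (nB a).mul (nθ.pow a)]
    exact Finset.sum_congr rfl fun a _ => by rw [(nB a).qExpansion_mul (nθ.pow a), nθ.qExpansion_pow]
  have hH0 : qExpansion 1 Hf ≠ 0 := by
    rw [Ne, nH.qExpansion_eq_zero_iff]
    intro h
    apply hz0
    have := congrFun h z0
    simpa [hHf, Finset.sum_apply] using this
  have hHG : qExpansion 1 Hf * qExpansion 1 f = qExpansion 1 Gf := by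
    rw [← nH.qExpansion_mul nf]
    congr 1
    ext z
    have := hint z
    simp only [hHf, hGf, Pi.mul_apply, Finset.sum_apply, Pi.pow_apply]
    rw [mul_comm]; exact this
  have hrelq : qExpansion 1 f ^ (n + 1) + ∑ i ∈ Finset.range (n + 1),
      qExpansion 1 (e (i + 1)) * qExpansion 1 f ^ (n - i) = 0 := by
    have h0 : (f : ℍ → ℂ) ^ (n + 1) + ∑ i ∈ Finset.range (n + 1),
        (e (i + 1) : ℍ → ℂ) * (f : ℍ → ℂ) ^ (n - i) = 0 := by
      ext z
      simpa [Finset.sum_apply] using hrel z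
    have h1 := congrArg (qExpansion 1) h0
    rw [(nf.pow _).qExpansion_add (IsNice.sum _ fun i _ => (ne (i + 1)).mul (nf.pow _)),
      IsNice.qExpansion_sum _ fun i _ => (ne (i + 1)).mul (nf.pow _), nf.qExpansion_pow,
      UpperHalfPlane.qExpansion_zero] at h1
    rw [← h1]
    congr 1
    exact Finset.sum_congr rfl fun i _ => by
      rw [(ne (i + 1)).qExpansion_mul (nf.pow _), nf.qExpansion_pow]
  have hHmem : qExpansion 1 Hf ∈ CZ := by
    rw [hqH]
    exact CZ.sum_mem fun a _ => CZ_mul (qExpansion_levelOne_mem_CZ _) (CZ_pow hθint.mem_CZ a)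
  have hGmem : qExpansion 1 Gf ∈ CZ := by
    rw [hqG]
    exact CZ.sum_mem fun a _ => CZ_mul (qExpansion_levelOne_mem_CZ _) (CZ_pow hθint.mem_CZ a)
  obtain ⟨D, hD, hint'⟩ := den_core (qExpansion 1 f) hf n (fun i => qExpansion 1 (e (i + 1)))
    (fun i => qExpansion_levelOne_mem_CZ _) hrelq _ _ hHmem hH0 hGmem hHG
  refine ⟨D, hD, fun m => ?_⟩
  obtain ⟨a, ha⟩ := hint' m
  exact ⟨a, by rw [← ha]; simp⟩

end

end Fermat.Agent.S23
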