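import Mathlib
import Fermat.Statements.S23
import Fermat.Prelude.Thm_ModularForm_sturm_bound_Gamma0
import Fermat.Prelude.Thm_CongruenceSubgroup_one_mem_strictPeriods_Gamma0
import Fermat.Agent.S23.FixedField

set_option autoImplicit false

open UpperHalfPlane ModularForm CongruenceSubgroup
open scoped MatrixGroups ModularForm Manifold

namespace Fermat.Agent.S23

/-- Abstract Galois descent: a finite dimensional complex vector space with a separating family of
coordinates, stable under conjugation of the coordinates by every ring endomorphism of `ℂ`, is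
spanned by its vectors with rational coordinates. -/
theorem span_rat_coord_eq_top {V : Type*} [AddCommGroup V] [Module ℂ V] [FiniteDimensional ℂ V]
    (a : ℕ → Module.Dual ℂ V) (hsep : ∀ v, (∀ n, a n v = 0) → v = 0)
    (hconj : ∀ (σ : ℂ →+* ℂ) (f : V), ∃ g : V, ∀ n, a n g = σ (a n f)) :
    Submodule.span ℂ {f : V | ∀ n, ∃ r : ℚ, a n f = r} = ⊤ := by
  classical
  have hspan : Submodule.span ℂ (Set.range a) = ⊤ := by
    have h1 : (Submodule.span ℂ (Set.range a)).dualCoannihilator = ⊥ := by
      rw [eq_bot_iff]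
      intro v hv
      rw [Submodule.mem_dualCoannihilator] at hv
      exact hsep v (fun n => hv (a n) (Submodule.subset_span ⟨n, rfl⟩))
    have h2 := Subspace.dualCoannihilator_dualAnnihilator_eq
      (W := Submodule.span ℂ (Set.range a))
    rw [h1, Submodule.dualAnnihilator_bot] at h2
    exact h2.symm
  obtain ⟨b, hb, hbspan, hbli⟩ := exists_linearIndependent ℂ (Set.range a)
  let β : Module.Basis b ℂ (Module.Dual ℂ V) :=
    Module.Basis.mk hbli (by rw [Subtype.range_coe, hbspan, hspan])
  have hβ : ∀ i : b, β i = (i : Module.Dual ℂ V) := fun i => by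
    simp [β]
  haveI : Finite b := Module.Finite.finite_basis β
  let e : Module.Basis b ℂ V := β.dualBasis.map (Module.evalEquiv ℂ V).symm
  have he : ∀ i j : b, β i (e j) = if i = j then 1 else 0 := by
    intro i j
    simp only [e, Module.Basis.map_apply]
    rw [Module.apply_evalEquiv_symm_apply, Module.Basis.dualBasis_apply_self]
  have hzero : ∀ x : V, (∀ i : b, β i x = 0) → x = 0 := by
    intro x hx
    have h1 : Module.Dual.eval ℂ V x = 0 := β.ext (fun i => by simpa using hx i)
    rw [← Module.forall_dual_apply_eq_zero_iff ℂ x]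
    intro φ
    have := LinearMap.congr_fun h1 φ
    simpa using this
  have hrat : ∀ j : b, e j ∈ {f : V | ∀ n, ∃ r : ℚ, a n f = r} := by
    intro j n
    obtain ⟨r, hr⟩ := exists_rat_of_forall_ringHom_fixed (a n (e j)) (by
      intro σ
      obtain ⟨g, hg⟩ := hconj σ (e j)
      have hge : g = e j := by
        rw [← sub_eq_zero]
        apply hzero
        intro i
        obtain ⟨m, hm⟩ := hb i.2
        rw [map_sub, sub_eq_zero, he i j, hβ i, ← hm, hg m]
        have : a m (e j) = if i = j then 1 else 0 := by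
          rw [hm, ← hβ i, he i j]
        rw [this]
        split_ifs <;> simp
      rw [← hg n, hge])
    exact ⟨r, hr.symm⟩
  rw [eq_top_iff, ← e.span_eq, Submodule.span_le]
  rintro _ ⟨j, rfl⟩
  exact Submodule.subset_span (hrat j)

variable {N : ℕ} {k : ℤ}

/-- The `n`-th `q`-coefficient as a linear functional on cusp forms. -/
noncomputable def coeffFunctional (N : ℕ) (k : ℤ) (n : ℕ) :
    Module.Dual ℂ (CuspForm (Gamma0 N) k) where
  toFun f := (qExpansion 1 f).coeff n
  map_add' f g := by
    rw [FunLike.coe_add, ModularForm.qExpansion_add one_pos (one_mem_strictPeriods_Gamma0 N) f g,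
      map_add]
  map_smul' c f := by
    rw [FunLike.coe_smul, ModularForm.qExpansion_smul one_pos (one_mem_strictPeriods_Gamma0 N) c f]
    simp

@[simp] theorem coeffFunctional_apply (n : ℕ) (f : CuspForm (Gamma0 N) k) :
    coeffFunctional N k n f = (qExpansion 1 f).coeff n := rfl

theorem cuspForm_eq_zero_of_coeff [NeZero N] (f : CuspForm (Gamma0 N) k)
    (h : ∀ n : ℕ, n ≤ (k * (Gamma0 N).index).toNat / 12 → (qExpansion 1 f).coeff n = 0) :
    f = 0 := by
  have hmf : (ModularFormClass.modularForm f : ModularForm (Gamma0 N) k) = 0 :=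
    ModularForm.sturm_bound_Gamma0 N _ fun n hn ↦ by simpa using h n hn
  have hcoe : (⇑f : ℍ → ℂ) = 0 := by
    have := congrArg (fun F : ModularForm (Gamma0 N) k ↦ (⇑F : ℍ → ℂ)) hmf
    simpa using this
  exact DFunLike.coe_injective (hcoe.trans CuspForm.coe_zero.symm)

/-- Cusp forms on `Γ₀(N)` form a finite dimensional space (Sturm bound). -/
theorem finiteDimensional_cuspForm (N : ℕ) [NeZero N] (k : ℤ) :
    FiniteDimensional ℂ (CuspForm (Gamma0 N) k) := by
  let B := (k * (Gamma0 N).index).toNat / 12
  let T : CuspForm (Gamma0 N) k →ₗ[ℂ] (Fin (B + 1) → ℂ) :=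
    LinearMap.pi fun i => coeffFunctional N k i
  refine FiniteDimensional.of_injective T ?_
  refine (injective_iff_map_eq_zero _).mpr fun f hf => ?_
  refine cuspForm_eq_zero_of_coeff f fun n hn => ?_
  have := congrFun hf ⟨n, Nat.lt_succ_of_le hn⟩
  simpa [T] using this

/-- **L6** (descent), with the conjugation theorem as a hypothesis. -/
theorem span_rat_of_conj (N : ℕ) [NeZero N] (k : ℤ)
    (hconj : ∀ (σ : ℂ →+* ℂ) (f : CuspForm (Gamma0 N) k),
      ∃ g : CuspForm (Gamma0 N) k, qExpansion 1 g = (qExpansion 1 f).map σ) :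
    Submodule.span ℂ {f : CuspForm (Gamma0 N) k | ∀ n, ∃ r : ℚ, (qExpansion 1 f).coeff n = r}
      = ⊤ := by
  haveI := finiteDimensional_cuspForm N k
  refine span_rat_coord_eq_top (coeffFunctional N k)
    (fun f hf => cuspForm_eq_zero_of_coeff f fun n _ => hf n) ?_
  intro σ f
  obtain ⟨g, hg⟩ := hconj σ f
  exact ⟨g, fun n => by simp [hg]⟩

/-- Final assembly: rational span + bounded denominators give the integral structure. -/
theorem hasIntegralStructure_of (N : ℕ) (k : ℤ)
    (hspan : Submodule.span ℂ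
      {f : CuspForm (Gamma0 N) k | ∀ n, ∃ r : ℚ, (qExpansion 1 f).coeff n = r} = ⊤)
    (hden : ∀ f : CuspForm (Gamma0 N) k, (∀ n, ∃ r : ℚ, (qExpansion 1 f).coeff n = r) →
      ∃ D : ℕ, D ≠ 0 ∧ ∀ n, ∃ m : ℤ, (D : ℂ) * (qExpansion 1 f).coeff n = m) :
    CuspForm.HasIntegralStructure N k := by
  unfold CuspForm.HasIntegralStructure
  rw [eq_top_iff, ← hspan, Submodule.span_le]
  intro f hf
  obtain ⟨D, hD, hDf⟩ := hden f hf
  have hmem : (D : ℂ) • f ∈ CuspForm.intLattice N k := by
    refine Submodule.subset_span fun n => ?_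
    obtain ⟨m, hm⟩ := hDf n
    refine ⟨m, ?_⟩
    rw [← hm]
    exact (coeffFunctional N k n).map_smul (D : ℂ) f
  have hD' : (D : ℂ) ≠ 0 := by exact_mod_cast hD
  have : f = (D : ℂ)⁻¹ • ((D : ℂ) • f) := by rw [smul_smul, inv_mul_cancel₀ hD', one_smul]
  rw [this]
  exact Submodule.smul_mem _ _ (Submodule.subset_span hmem)

end Fermat.Agent.S23
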