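import Fermat.Agent.S23.ConjFinal
import Fermat.Agent.S23.Descent
import Fermat.Agent.S23.Den

/-! The integral structure theorem for `S_k(Γ₀(N))`, every weight `k`. -/

set_option autoImplicit false
open UpperHalfPlane ModularForm CongruenceSubgroup
open scoped MatrixGroups ModularForm Manifold

namespace Fermat.Agent.S23

theorem bounded_denominators (N : ℕ) [NeZero N] (k : ℤ) (f : CuspForm (Gamma0 N) k)
    (hf : ∀ n, ∃ r : ℚ, (qExpansion 1 f).coeff n = r) :
    ∃ D : ℕ, D ≠ 0 ∧ ∀ n, ∃ m : ℤ, (D : ℂ) * (qExpansion 1 f).coeff n = m := by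
  obtain ⟨θ, hθint, hθ⟩ := exists_theta N
  exact bounded_denominators_of_theta N k θ hθint hθ f hf

/-- `S_k(Γ₀(N))` is spanned by forms with integral `q`-expansion, for every weight `k`. -/
theorem hasIntegralStructure (N : ℕ) [NeZero N] (k : ℤ) : CuspForm.HasIntegralStructure N k :=
  hasIntegralStructure_of N k (span_rat_of_conj N k (exists_conj N k)) (bounded_denominators N k)

end Fermat.Agent.S23
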