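import Mathlib
import Fermat.Statements.S23

set_option autoImplicit false

namespace Fermat.Agent.S23

/-- power series with integer coefficients -/
def IsIntPS (p : PowerSeries ℂ) : Prop := ∀ n, ∃ m : ℤ, p.coeff n = m

end Fermat.Agent.S23
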