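import Mathlib
import Fermat.Statements.S23
import Fermat.Agent.S23.Defs
import Fermat.Prelude.Thm_CongruenceSubgroup_one_mem_strictPeriods_Gamma0

set_option autoImplicit false
open UpperHalfPlane ModularForm CongruenceSubgroup EisensteinSeries
open scoped MatrixGroups ModularForm Manifold

namespace Fermat.Agent.S23

/-- `1`-periodic holomorphic functions on `ℍ`, bounded at `i∞`: the class on which `qExpansion 1`
is an injective ring homomorphism. -/
structure Good (F : ℍ → ℂ) : Prop where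
  per : Function.Periodic (F ∘ ofComplex) 1
  hol : MDiff F
  bdd : IsBoundedAtImInfty F

namespace Good

variable {F G : ℍ → ℂ}

theorem analytic (hF : Good F) : AnalyticAt ℂ (cuspFunction 1 F) 0 :=
  analyticAt_cuspFunction_zero one_pos hF.per hF.hol hF.bdd

theorem add (hF : Good F) (hG : Good G) : Good (F + G) :=
  ⟨hF.per.add hG.per, hF.hol.add hG.hol, hF.bdd.add hG.bdd⟩

theorem mul (hF : Good F) (hG : Good G) : Good (F * G) :=
  ⟨hF.per.mul hG.per, hF.hol.mul hG.hol, hF.bdd.mul hG.bdd⟩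

theorem zero : Good (0 : ℍ → ℂ) :=
  ⟨fun _ => rfl, mdifferentiable_const, Filter.const_boundedAtFilter _ 0⟩

theorem one : Good (1 : ℍ → ℂ) :=
  ⟨fun _ => rfl, mdifferentiable_const, Filter.const_boundedAtFilter _ 1⟩

theorem pow (hF : Good F) (n : ℕ) : Good (F ^ n) := by
  induction n with
  | zero => simpa using one
  | succ n ih => rw [pow_succ]; exact ih.mul hF

theorem sum {ι : Type*} (s : Finset ι) {F : ι → ℍ → ℂ} (h : ∀ i ∈ s, Good (F i)) :
    Good (∑ i ∈ s, F i) := by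
  classical
  induction s using Finset.induction_on with
  | empty => simpa using zero
  | insert a s ha ih =>
    rw [Finset.sum_insert ha]
    exact (h a (Finset.mem_insert_self a s)).add
      (ih fun i hi => h i (Finset.mem_insert_of_mem hi))

theorem qExp_add (hF : Good F) (hG : Good G) :
    qExpansion 1 (F + G) = qExpansion 1 F + qExpansion 1 G :=
  qExpansion_add hF.analytic hG.analytic

theorem qExp_mul (hF : Good F) (hG : Good G) :
    qExpansion 1 (F * G) = qExpansion 1 F * qExpansion 1 G :=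
  qExpansion_mul hF.analytic hG.analytic

theorem qExp_pow (hF : Good F) (n : ℕ) : qExpansion 1 (F ^ n) = qExpansion 1 F ^ n := by
  induction n with
  | zero => simpa using qExpansion_one 1
  | succ n ih => rw [pow_succ, (hF.pow n).qExp_mul hF, ih, pow_succ]

theorem qExp_sum {ι : Type*} (s : Finset ι) {F : ι → ℍ → ℂ} (h : ∀ i ∈ s, Good (F i)) :
    qExpansion 1 (∑ i ∈ s, F i) = ∑ i ∈ s, qExpansion 1 (F i) := by
  classical
  induction s using Finset.induction_on with
  | empty => simpa using qExpansion_zero 1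
  | insert a s ha ih =>
    rw [Finset.sum_insert ha, Finset.sum_insert ha,
      (h a (Finset.mem_insert_self a s)).qExp_add
        (sum s fun i hi => h i (Finset.mem_insert_of_mem hi)),
      ih fun i hi => h i (Finset.mem_insert_of_mem hi)]

theorem eq_zero_of_qExp (hF : Good F) (h : qExpansion 1 F = 0) : F = 0 :=
  (qExpansion_eq_zero_iff one_pos hF.per hF.hol hF.bdd).mp h

end Good

theorem good_of_levelOne {k : ℤ} (F : ModularForm 𝒮ℒ k) : Good ⇑F :=
  ⟨SlashInvariantFormClass.periodic_comp_ofComplex F one_mem_strictPeriods_SL, F.holo',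
    ModularFormClass.bdd_at_infty F⟩

theorem good_of_Gamma0 {N : ℕ} [NeZero N] {k : ℤ} (F : ModularForm (Gamma0 N) k) : Good ⇑F :=
  ⟨SlashInvariantFormClass.periodic_comp_ofComplex F (one_mem_strictPeriods_Gamma0 N), F.holo',
    ModularFormClass.bdd_at_infty F⟩

theorem good_of_cusp_Gamma0 {N : ℕ} [NeZero N] {k : ℤ} (F : CuspForm (Gamma0 N) k) : Good ⇑F :=
  ⟨SlashInvariantFormClass.periodic_comp_ofComplex F (one_mem_strictPeriods_Gamma0 N), F.holo',
    ModularFormClass.bdd_at_infty F⟩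

/-- `F` is (the function of) a modular form of weight `k` on `Γ₀(N)`. -/
def IsMFG0 (N : ℕ) (k : ℤ) (F : ℍ → ℂ) : Prop := ∃ f : ModularForm (Gamma0 N) k, ⇑f = F

namespace IsMFG0

variable {N : ℕ} {k k₁ k₂ : ℤ} {F G : ℍ → ℂ}

theorem add (hF : IsMFG0 N k F) (hG : IsMFG0 N k G) : IsMFG0 N k (F + G) := by
  obtain ⟨f, rfl⟩ := hF
  obtain ⟨g, rfl⟩ := hG
  exact ⟨f + g, rfl⟩

theorem zero : IsMFG0 N k 0 := ⟨0, rfl⟩

theorem mul (hF : IsMFG0 N k₁ F) (hG : IsMFG0 N k₂ G) (h : k₁ + k₂ = k) : IsMFG0 N k (F * G) := by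
  obtain ⟨f, rfl⟩ := hF
  obtain ⟨g, rfl⟩ := hG
  subst h
  exact ⟨f.mul g, rfl⟩

theorem pow (hF : IsMFG0 N k F) (n : ℕ) : IsMFG0 N (n * k) (F ^ n) := by
  obtain ⟨f, rfl⟩ := hF
  exact ⟨f.pow n, ModularForm.coe_pow f n⟩

theorem sum {ι : Type*} (s : Finset ι) {F : ι → ℍ → ℂ} (h : ∀ i ∈ s, IsMFG0 N k (F i)) :
    IsMFG0 N k (∑ i ∈ s, F i) := by
  classical
  induction s using Finset.induction_on with
  | empty => simpa using zero
  | insert a s ha ih =>
    rw [Finset.sum_insert ha]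
    exact (h a (Finset.mem_insert_self a s)).add
      (ih fun i hi => h i (Finset.mem_insert_of_mem hi))

end IsMFG0

theorem isMFG0_of_levelOne (N : ℕ) [NeZero N] {k : ℤ} (F : ModularForm 𝒮ℒ k) : IsMFG0 N k ⇑F :=
  ⟨{ toFun := F
     slash_action_eq' := by
       rintro _ ⟨γ, -, rfl⟩
       exact F.slash_action_eq' _ ⟨γ, rfl⟩
     holo' := F.holo'
     bdd_at_cusps' := fun hc =>
       F.bdd_at_cusps' ((Subgroup.IsArithmetic.isCusp_iff_isCusp_SL2Z _).mp hc) }, rfl⟩

theorem map_eq_self_of_isIntPS (σ : ℂ →+* ℂ) {t : PowerSeries ℂ} (ht : IsIntPS t) :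
    PowerSeries.map σ t = t := by
  ext n
  obtain ⟨m, hm⟩ := ht n
  rw [PowerSeries.coeff_map, hm, map_intCast]

theorem powerSeries_map_injective (σ : ℂ →+* ℂ) : Function.Injective (PowerSeries.map σ) := by
  intro a b h
  ext n
  have := congrArg (PowerSeries.coeff n) h
  rw [PowerSeries.coeff_map, PowerSeries.coeff_map] at this
  exact σ.injective this


/-- KEY step, with all inputs as explicit hypotheses. -/
theorem exists_conj_of (N : ℕ) [NeZero N] (k : ℤ) (σ : ℂ →+* ℂ)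
    (hL1 : ∀ (k : ℤ) (F : ModularForm 𝒮ℒ k),
      ∃ F' : ModularForm 𝒮ℒ k, qExpansion 1 F' = (qExpansion 1 F).map σ)
    (hL4 : ∀ (w : ℤ) (n : ℕ)
      (H : ModularForm (Gamma0 N) w) (G : ModularForm (Gamma0 N) (k + w)) (_ : H ≠ 0)
      (e : (i : ℕ) → ModularForm 𝒮ℒ (i * k))
      (_ : ∀ i, 1 ≤ i → (qExpansion 1 (e i)).coeff 0 = 0)
      (_ : ∀ z, G z ^ (n + 1) +
        ∑ i ∈ Finset.range (n + 1), e (i + 1) z * G z ^ (n - i) * H z ^ (i + 1) = 0),
      ∃ g : CuspForm (Gamma0 N) k, ∀ z, g z * H z = G z)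
    (θ : ModularForm (Gamma0 N) 4) (hθ : IsIntPS (qExpansion 1 θ))
    (f : CuspForm (Gamma0 N) k)
    (n : ℕ) (e : (i : ℕ) → ModularForm 𝒮ℒ (i * k))
    (C : (a : ℕ) → ModularForm 𝒮ℒ (4 * ((n : ℤ) - a)))
    (B : (a : ℕ) → ModularForm 𝒮ℒ (k + 4 * ((n : ℤ) - a)))
    (he : ∀ i, 1 ≤ i → (qExpansion 1 (e i)).coeff 0 = 0)
    (h1 : ∀ z, f z ^ (n + 1) + ∑ i ∈ Finset.range (n + 1), e (i + 1) z * f z ^ (n - i) = 0)
    (h2 : ∀ z, f z * ∑ a ∈ Finset.range (n + 1), C a z * θ z ^ a =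
        ∑ a ∈ Finset.range (n + 1), B a z * θ z ^ a)
    (h3 : ∃ z, ∑ a ∈ Finset.range (n + 1), C a z * θ z ^ a ≠ 0) :
    ∃ g : CuspForm (Gamma0 N) k, qExpansion 1 g = (qExpansion 1 f).map σ := by
  classical
  -- conjugate level one forms
  choose e' he' using fun i => hL1 _ (e i)
  choose C' hC' using fun a => hL1 _ (C a)
  choose B' hB' using fun a => hL1 _ (B a)
  set P := PowerSeries.map σ with hP
  set t := qExpansion 1 θ with ht
  have hPt : P t = t := map_eq_self_of_isIntPS σ hθ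
  have gθ : Good ⇑θ := good_of_Gamma0 θ
  have gf : Good ⇑f := good_of_cusp_Gamma0 f
  -- the four auxiliary functions
  set H0 : ℍ → ℂ := ∑ a ∈ Finset.range (n + 1), ⇑(C a) * ⇑θ ^ a with hH0
  set G0 : ℍ → ℂ := ∑ a ∈ Finset.range (n + 1), ⇑(B a) * ⇑θ ^ a with hG0
  set H1 : ℍ → ℂ := ∑ a ∈ Finset.range (n + 1), ⇑(C' a) * ⇑θ ^ a with hH1
  set G1 : ℍ → ℂ := ∑ a ∈ Finset.range (n + 1), ⇑(B' a) * ⇑θ ^ a with hG1
  have gH0 : Good H0 := Good.sum _ fun a _ => (good_of_levelOne _).mul (gθ.pow a)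
  have gG0 : Good G0 := Good.sum _ fun a _ => (good_of_levelOne _).mul (gθ.pow a)
  have gH1 : Good H1 := Good.sum _ fun a _ => (good_of_levelOne _).mul (gθ.pow a)
  have gG1 : Good G1 := Good.sum _ fun a _ => (good_of_levelOne _).mul (gθ.pow a)
  have qH0 : qExpansion 1 H0 = ∑ a ∈ Finset.range (n + 1), qExpansion 1 (C a) * t ^ a := by
    rw [hH0, Good.qExp_sum _ fun a _ => (good_of_levelOne _).mul (gθ.pow a)]
    exact Finset.sum_congr rfl fun a _ => by
      rw [(good_of_levelOne _).qExp_mul (gθ.pow a), gθ.qExp_pow]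
  have qG0 : qExpansion 1 G0 = ∑ a ∈ Finset.range (n + 1), qExpansion 1 (B a) * t ^ a := by
    rw [hG0, Good.qExp_sum _ fun a _ => (good_of_levelOne _).mul (gθ.pow a)]
    exact Finset.sum_congr rfl fun a _ => by
      rw [(good_of_levelOne _).qExp_mul (gθ.pow a), gθ.qExp_pow]
  have qH1 : qExpansion 1 H1 = P (qExpansion 1 H0) := by
    rw [qH0, map_sum, hH1, Good.qExp_sum _ fun a _ => (good_of_levelOne _).mul (gθ.pow a)]
    exact Finset.sum_congr rfl fun a _ => by
      rw [(good_of_levelOne _).qExp_mul (gθ.pow a), gθ.qExp_pow, map_mul, map_pow, hPt, hC' a]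
  have qG1 : qExpansion 1 G1 = P (qExpansion 1 G0) := by
    rw [qG0, map_sum, hG1, Good.qExp_sum _ fun a _ => (good_of_levelOne _).mul (gθ.pow a)]
    exact Finset.sum_congr rfl fun a _ => by
      rw [(good_of_levelOne _).qExp_mul (gθ.pow a), gθ.qExp_pow, map_mul, map_pow, hPt, hB' a]
  -- `H0 ≠ 0`, hence `H1 ≠ 0`
  have hH0ne : qExpansion 1 H0 ≠ 0 := by
    intro h
    obtain ⟨z, hz⟩ := h3
    apply hz
    have := congrFun (gH0.eq_zero_of_qExp h) z
    simpa [hH0, Finset.sum_apply] using this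
  have hH1ne : qExpansion 1 H1 ≠ 0 := by
    rw [qH1]
    intro h
    exact hH0ne (powerSeries_map_injective σ (h.trans (map_zero P).symm))
  -- relation (R2)
  have r2 : qExpansion 1 f * qExpansion 1 H0 = qExpansion 1 G0 := by
    rw [← gf.qExp_mul gH0]
    congr 1
    funext z
    simpa [hH0, hG0, Finset.sum_apply] using h2 z
  have r2' : P (qExpansion 1 f) * qExpansion 1 H1 = qExpansion 1 G1 := by
    rw [qH1, qG1, ← map_mul, r2]
  -- relation (R1)
  have r1 : qExpansion 1 f ^ (n + 1) +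
      ∑ i ∈ Finset.range (n + 1), qExpansion 1 (e (i + 1)) * qExpansion 1 f ^ (n - i) = 0 := by
    have hz : (⇑f ^ (n + 1) + ∑ i ∈ Finset.range (n + 1), ⇑(e (i + 1)) * ⇑f ^ (n - i) : ℍ → ℂ)
        = 0 := by
      funext z
      simpa [Finset.sum_apply] using h1 z
    have := congrArg (qExpansion 1) hz
    rw [qExpansion_zero, (gf.pow _).qExp_add
      (Good.sum _ fun i _ => (good_of_levelOne _).mul (gf.pow _)), gf.qExp_pow,
      Good.qExp_sum _ fun i _ => (good_of_levelOne _).mul (gf.pow _)] at this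
    rw [← this]
    congr 1
    exact Finset.sum_congr rfl fun i _ => by
      rw [(good_of_levelOne _).qExp_mul (gf.pow _), gf.qExp_pow]
  have r1' : P (qExpansion 1 f) ^ (n + 1) + ∑ i ∈ Finset.range (n + 1),
      qExpansion 1 (e' (i + 1)) * P (qExpansion 1 f) ^ (n - i) = 0 := by
    have := congrArg P r1
    rw [map_zero, map_add, map_pow, map_sum] at this
    rw [← this]
    congr 1
    exact Finset.sum_congr rfl fun i _ => by rw [map_mul, map_pow, he' (i + 1)]
  -- the relation for `G1`, `H1`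
  have rel : (G1 ^ (n + 1) + ∑ i ∈ Finset.range (n + 1),
      ⇑(e' (i + 1)) * G1 ^ (n - i) * H1 ^ (i + 1) : ℍ → ℂ) = 0 := by
    have gterm : ∀ i ∈ Finset.range (n + 1), Good (⇑(e' (i + 1)) * G1 ^ (n - i) * H1 ^ (i + 1)) :=
      fun i _ => ((good_of_levelOne _).mul (gG1.pow _)).mul (gH1.pow _)
    refine ((gG1.pow _).add (Good.sum _ gterm)).eq_zero_of_qExp ?_
    rw [(gG1.pow _).qExp_add (Good.sum _ gterm), gG1.qExp_pow, Good.qExp_sum _ gterm]
    have : ∀ i ∈ Finset.range (n + 1),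
        qExpansion 1 (⇑(e' (i + 1)) * G1 ^ (n - i) * H1 ^ (i + 1)) =
        qExpansion 1 H1 ^ (n + 1) *
          (qExpansion 1 (e' (i + 1)) * P (qExpansion 1 f) ^ (n - i)) := by
      intro i hi
      have hi' : i ≤ n := Nat.lt_succ_iff.mp (Finset.mem_range.mp hi)
      rw [((good_of_levelOne _).mul (gG1.pow _)).qExp_mul (gH1.pow _),
        (good_of_levelOne _).qExp_mul (gG1.pow _), gG1.qExp_pow, gH1.qExp_pow, ← r2', mul_pow]
      have : qExpansion 1 H1 ^ (n + 1) = qExpansion 1 H1 ^ (n - i) * qExpansion 1 H1 ^ (i + 1) := by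
        rw [← pow_add]; congr 1; omega
      rw [this]; ring
    rw [Finset.sum_congr rfl this, ← Finset.mul_sum, ← r2', mul_pow,
      mul_comm (P (qExpansion 1 f) ^ (n + 1)), ← mul_add, r1', mul_zero]
  -- package `H1`, `G1` as modular forms
  have mθ : IsMFG0 N 4 ⇑θ := ⟨θ, rfl⟩
  obtain ⟨H, hH⟩ : IsMFG0 N (4 * (n : ℤ)) H1 :=
    IsMFG0.sum _ fun a _ => (isMFG0_of_levelOne N (C' a)).mul (mθ.pow a) (by ring)
  obtain ⟨G, hG⟩ : IsMFG0 N (k + 4 * (n : ℤ)) G1 :=
    IsMFG0.sum _ fun a _ => (isMFG0_of_levelOne N (B' a)).mul (mθ.pow a) (by ring)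
  have hHne : H ≠ 0 := by
    rintro rfl
    apply hH1ne
    rw [← hH]
    exact qExpansion_zero 1
  obtain ⟨g, hg⟩ := hL4 (4 * (n : ℤ)) n H G hHne e'
    (fun i hi => by rw [he' i, PowerSeries.coeff_map, he i hi, map_zero])
    (fun z => by
      have := congrFun rel z
      rw [hH, hG]
      simpa [Finset.sum_apply] using this)
  refine ⟨g, ?_⟩
  have hgH : (⇑g * H1 : ℍ → ℂ) = G1 := by
    funext z
    rw [← hH, ← hG]
    exact hg z
  have := congrArg (qExpansion 1) hgH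
  rw [(good_of_cusp_Gamma0 g).qExp_mul gH1, ← r2'] at this
  exact mul_right_cancel₀ hH1ne this

end Fermat.Agent.S23
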