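import Fermat.Agent.S23.Defs

set_option autoImplicit false
open UpperHalfPlane ModularForm CongruenceSubgroup EisensteinSeries
open scoped MatrixGroups ModularForm Manifold

namespace Fermat.Agent.S23

theorem isIntPS_iff_mem_range (p : PowerSeries ℂ) :
    IsIntPS p ↔ p ∈ (PowerSeries.map (Int.castRingHom ℂ)).range := by
  constructor
  · intro h
    choose m hm using h
    refine ⟨PowerSeries.mk m, ?_⟩
    ext n
    simp [hm n]
  · rintro ⟨P, rfl⟩ n
    exact ⟨P.coeff n, by simp⟩

theorem IsIntPS.add {p q : PowerSeries ℂ} (hp : IsIntPS p) (hq : IsIntPS q) : IsIntPS (p + q) := by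
  rw [isIntPS_iff_mem_range] at *
  exact add_mem hp hq

theorem IsIntPS.sub {p q : PowerSeries ℂ} (hp : IsIntPS p) (hq : IsIntPS q) : IsIntPS (p - q) := by
  rw [isIntPS_iff_mem_range] at *
  exact sub_mem hp hq

theorem IsIntPS.neg {p : PowerSeries ℂ} (hp : IsIntPS p) : IsIntPS (-p) := by
  rw [isIntPS_iff_mem_range] at *
  exact neg_mem hp

theorem IsIntPS.mul {p q : PowerSeries ℂ} (hp : IsIntPS p) (hq : IsIntPS q) : IsIntPS (p * q) := by
  rw [isIntPS_iff_mem_range] at *
  exact mul_mem hp hq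

theorem IsIntPS.pow {p : PowerSeries ℂ} (hp : IsIntPS p) (n : ℕ) : IsIntPS (p ^ n) := by
  rw [isIntPS_iff_mem_range] at *
  exact pow_mem hp n

theorem IsIntPS.zero : IsIntPS 0 := by
  rw [isIntPS_iff_mem_range]
  exact zero_mem _

theorem IsIntPS.one : IsIntPS 1 := by
  rw [isIntPS_iff_mem_range]
  exact one_mem _

theorem IsIntPS.sum {ι : Type*} (s : Finset ι) {p : ι → PowerSeries ℂ}
    (hp : ∀ i ∈ s, IsIntPS (p i)) : IsIntPS (∑ i ∈ s, p i) := by
  simp only [isIntPS_iff_mem_range] at *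
  exact sum_mem hp

theorem IsIntPS.prod {ι : Type*} (s : Finset ι) {p : ι → PowerSeries ℂ}
    (hp : ∀ i ∈ s, IsIntPS (p i)) : IsIntPS (∏ i ∈ s, p i) := by
  simp only [isIntPS_iff_mem_range] at *
  exact prod_mem hp

theorem IsIntPS.int_smul {p : PowerSeries ℂ} (hp : IsIntPS p) (a : ℤ) :
    IsIntPS ((a : ℂ) • p) := by
  intro n
  obtain ⟨m, hm⟩ := hp n
  exact ⟨a * m, by simp [hm]⟩

/-- A nonzero integer multiple of `E_k` has an integral `q`-expansion. -/
theorem exists_isIntPS_smul_E {k : ℕ} (hk : 3 ≤ k) (hk2 : Even k) :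
    ∃ D : ℕ, D ≠ 0 ∧ IsIntPS (qExpansion 1 ((D : ℂ) • E hk : ModularForm 𝒮ℒ k)) := by
  set c : ℚ := -(2 * k / bernoulli k) with hc
  refine ⟨c.den, c.den_nz, fun m => ?_⟩
  rw [FunLike.coe_smul, ModularForm.qExpansion_smul one_pos one_mem_strictPeriods_SL,
    PowerSeries.coeff_smul, E_qExpansion_coeff hk hk2]
  split_ifs with h
  · exact ⟨c.den, by simp⟩
  · refine ⟨c.num * (ArithmeticFunction.sigma (k - 1) m : ℕ), ?_⟩
    have h1 : (-(2 * k / bernoulli k : ℂ)) = ((c : ℚ) : ℂ) := by
      rw [hc]; push_cast; ring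
    have h2 : ((c.den : ℚ) * c) = c.num := Rat.den_mul_eq_num c
    have h3 : ((c.den : ℂ) * ((c : ℚ) : ℂ)) = (c.num : ℂ) := by exact_mod_cast h2
    rw [h1, smul_eq_mul, ← mul_assoc, h3]
    push_cast
    ring


theorem qExpansion_discriminant_eq :
    (1728 : ℂ) • qExpansion 1 ModularForm.discriminant =
      qExpansion 1 E₄ ^ 3 - qExpansion 1 E₆ ^ 2 := by
  have h : ((1728 : ℂ) • (CuspForm.discriminant : ℍ → ℂ)) =
      (⇑(E₄.pow 3) - ⇑(E₆.pow 2) : ℍ → ℂ) := by
    ext z
    simp only [Pi.smul_apply, Pi.sub_apply, coe_pow, Pi.pow_apply, smul_eq_mul,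
      CuspForm.coe_discriminant, discriminant_eq_E₄_cube_sub_E₆_sq z]
    ring
  rw [← ModularForm.qExpansion_pow one_pos one_mem_strictPeriods_SL,
    ← ModularForm.qExpansion_pow one_pos one_mem_strictPeriods_SL,
    ← ModularForm.qExpansion_sub one_pos one_mem_strictPeriods_SL, ← h,
    ModularForm.qExpansion_smul one_pos one_mem_strictPeriods_SL, CuspForm.coe_discriminant]

theorem isIntPS_E₄ : IsIntPS (qExpansion 1 E₄) := by
  intro m
  rw [E_qExpansion_coeff _ ⟨2, rfl⟩]
  split_ifs with h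
  · exact ⟨1, by simp⟩
  · refine ⟨240 * (ArithmeticFunction.sigma 3 m : ℕ), ?_⟩
    norm_num [show bernoulli 4 = -1 / 30 by decide +kernel]

theorem isIntPS_E₆ : IsIntPS (qExpansion 1 E₆) := by
  intro m
  rw [E_qExpansion_coeff _ ⟨3, rfl⟩]
  split_ifs with h
  · exact ⟨1, by simp⟩
  · refine ⟨-504 * (ArithmeticFunction.sigma 5 m : ℕ), ?_⟩
    norm_num [show bernoulli 6 = 1 / 42 by decide +kernel]

theorem isIntPS_smul_discriminant :
    IsIntPS ((1728 : ℂ) • qExpansion 1 ModularForm.discriminant) := by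
  rw [qExpansion_discriminant_eq]
  exact (isIntPS_E₄.pow 3).sub (isIntPS_E₆.pow 2)

/-- multiplication by the discriminant, as a linear map between spaces of modular forms -/
noncomputable def mulDisc (k : ℤ) : ModularForm 𝒮ℒ (k - 12) →ₗ[ℂ] ModularForm 𝒮ℒ k :=
  CuspForm.toModularFormₗ ∘ₗ (CuspForm.discriminantEquiv (k := k)).symm.toLinearMap

theorem mulDisc_apply (k : ℤ) (G : ModularForm 𝒮ℒ (k - 12)) (z : ℍ) :
    mulDisc k G z = ModularForm.discriminant z * G z := rfl

theorem qExpansion_mulDisc (k : ℤ) (G : ModularForm 𝒮ℒ (k - 12)) :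
    qExpansion 1 (mulDisc k G) = qExpansion 1 ModularForm.discriminant * qExpansion 1 G := by
  rw [← CuspForm.coe_discriminant,
    ← ModularForm.qExpansion_mul_coe one_pos one_mem_strictPeriods_SL CuspForm.discriminant G]
  rfl

theorem mulDisc_mem_span (k : ℤ) (G : ModularForm 𝒮ℒ (k - 12))
    (hG : IsIntPS (qExpansion 1 G)) :
    mulDisc k G ∈ Submodule.span ℂ {F : ModularForm 𝒮ℒ k | IsIntPS (qExpansion 1 F)} := by
  have h1 : ((1728 : ℂ) • mulDisc k G) ∈
      Submodule.span ℂ {F : ModularForm 𝒮ℒ k | IsIntPS (qExpansion 1 F)} := by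
    apply Submodule.subset_span
    show IsIntPS (qExpansion 1 ((1728 : ℂ) • mulDisc k G : ModularForm 𝒮ℒ k))
    rw [FunLike.coe_smul, ModularForm.qExpansion_smul one_pos one_mem_strictPeriods_SL,
      qExpansion_mulDisc, ← smul_mul_assoc]
    exact isIntPS_smul_discriminant.mul hG
  have h2 := Submodule.smul_mem _ ((1728 : ℂ)⁻¹) h1
  rwa [smul_smul, inv_mul_cancel₀ (by norm_num), one_smul] at h2

theorem mem_span_int_aux (n : ℕ) : ∀ k : ℤ, k < n → ∀ F : ModularForm 𝒮ℒ k,
    F ∈ Submodule.span ℂ {F : ModularForm 𝒮ℒ k | IsIntPS (qExpansion 1 F)} := by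
  induction n with
  | zero =>
    intro k hk F
    have : F = 0 :=
      rank_zero_iff_forall_zero.mp (levelOne_neg_weight_rank_zero (by simpa using hk)) F
    rw [this]; exact zero_mem _
  | succ n ih =>
    intro k hk F
    have hk' : k ≤ n := by push_cast at hk; omega
    rcases lt_or_eq_of_le hk' with h | rfl
    · exact ih k h F
    rcases Nat.even_or_odd n with hev | hodd
    swap
    · have : F = 0 := levelOne_odd_weight_eq_zero (by exact_mod_cast hodd) F
      rw [this]; exact zero_mem _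
    rcases Nat.lt_or_ge n 3 with h3 | h3
    · have hn : n = 0 ∨ n = 2 := by
        obtain ⟨r, hr⟩ := hev
        omega
      rcases hn with rfl | rfl
      · obtain ⟨c, hc⟩ := ModularFormClass.levelOne_weight_zero_const F
        have hF : F = c • (1 : ModularForm 𝒮ℒ 0) := by
          ext z
          simp [hc]
        change F ∈ Submodule.span ℂ {F : ModularForm 𝒮ℒ 0 | IsIntPS (qExpansion 1 F)}
        rw [hF]
        apply Submodule.smul_mem
        apply Submodule.subset_span
        show IsIntPS (qExpansion 1 (1 : ModularForm 𝒮ℒ 0))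
        rw [ModularForm.qExpansion_one]
        exact IsIntPS.one
      · have : F = 0 := rank_zero_iff_forall_zero.mp levelOne_weight_two_rank_zero F
        rw [this]; exact zero_mem _
    · obtain ⟨D, hD, hInt⟩ := exists_isIntPS_smul_E h3 hev
      set a0 : ℂ := (qExpansion 1 F).coeff 0 with ha0
      set f0 : ModularForm 𝒮ℒ n := F - a0 • E h3 with hf0
      have hcusp : (qExpansion 1 f0).coeff 0 = 0 :=
        (isCuspForm_iff_coeffZero_eq_zero f0).mp
          (sub_smul_isCuspForm F (E h3) (E_qExpansion_coeff_zero h3 hev))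
      set g := CuspForm.discriminantEquiv (toCuspForm f0 hcusp) with hg
      have hgspan := ih ((n : ℤ) - 12) (by omega) g
      have hL : mulDisc n g = f0 := by
        ext z
        rw [mulDisc_apply, hg, discriminant_mul_discriminantEquiv_apply, toCuspForm_apply]
      have h1 : mulDisc n g ∈
          Submodule.span ℂ {F : ModularForm 𝒮ℒ n | IsIntPS (qExpansion 1 F)} := by
        have hle : Submodule.span ℂ {G : ModularForm 𝒮ℒ ((n : ℤ) - 12) | IsIntPS (qExpansion 1 G)} ≤
            (Submodule.span ℂ {F : ModularForm 𝒮ℒ n | IsIntPS (qExpansion 1 F)}).comap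
              (mulDisc n) := by
          rw [Submodule.span_le]
          intro G hG
          exact mulDisc_mem_span n G hG
        exact hle hgspan
      have h2 : E h3 ∈ Submodule.span ℂ {F : ModularForm 𝒮ℒ n | IsIntPS (qExpansion 1 F)} := by
        have h3' := Submodule.smul_mem _ ((D : ℂ)⁻¹)
          (Submodule.subset_span (s := {F : ModularForm 𝒮ℒ n | IsIntPS (qExpansion 1 F)}) hInt)
        rwa [smul_smul, inv_mul_cancel₀ (by exact_mod_cast hD), one_smul] at h3'
      have hF : F = mulDisc n g + a0 • E h3 := by rw [hL, hf0]; abel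
      rw [hF]
      exact add_mem h1 (Submodule.smul_mem _ _ h2)

/-- **L1**: level one modular forms are spanned by forms with integral `q`-expansion. -/
theorem levelOne_span_int (k : ℤ) :
    Submodule.span ℂ {F : ModularForm 𝒮ℒ k | IsIntPS (qExpansion 1 F)} = ⊤ := by
  rw [eq_top_iff]
  intro F _
  exact mem_span_int_aux (k.toNat + 1) k (by push_cast; have := Int.self_le_toNat k; omega) F


/-- Apply an additive map `ℂ → ℂ` coefficientwise to a level one form (e.g. a ring hom, or a
`ℚ`-linear functional). -/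
theorem levelOne_exists_map_addHom (k : ℤ) (lam : ℂ →+ ℂ) (F : ModularForm 𝒮ℒ k) :
    ∃ F' : ModularForm 𝒮ℒ k, ∀ n, (qExpansion 1 F').coeff n = lam ((qExpansion 1 F).coeff n) := by
  suffices h : ∀ c : ℂ, ∃ F' : ModularForm 𝒮ℒ k,
      ∀ n, (qExpansion 1 F').coeff n = lam (c * (qExpansion 1 F).coeff n) by
    simpa using h 1
  have hF : F ∈ Submodule.span ℂ {F : ModularForm 𝒮ℒ k | IsIntPS (qExpansion 1 F)} := by
    rw [levelOne_span_int]; trivial
  induction hF using Submodule.span_induction with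
  | mem G hG =>
    intro c
    refine ⟨lam c • G, fun n => ?_⟩
    obtain ⟨m, hm⟩ := hG n
    rw [FunLike.coe_smul, ModularForm.qExpansion_smul one_pos one_mem_strictPeriods_SL,
      PowerSeries.coeff_smul, hm, smul_eq_mul, mul_comm c, ← zsmul_eq_mul, map_zsmul, zsmul_eq_mul,
      mul_comm]
  | zero =>
    intro c
    exact ⟨0, fun n => by simp [qExpansion_zero]⟩
  | add G H _ _ ihG ihH =>
    intro c
    obtain ⟨G', hG'⟩ := ihG c
    obtain ⟨H', hH'⟩ := ihH c
    refine ⟨G' + H', fun n => ?_⟩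
    rw [FunLike.coe_add, FunLike.coe_add,
      ModularForm.qExpansion_add one_pos one_mem_strictPeriods_SL,
      ModularForm.qExpansion_add one_pos one_mem_strictPeriods_SL, map_add, map_add, hG', hH',
      mul_add, map_add]
  | smul d G _ ihG =>
    intro c
    obtain ⟨G', hG'⟩ := ihG (c * d)
    refine ⟨G', fun n => ?_⟩
    rw [hG', FunLike.coe_smul, ModularForm.qExpansion_smul one_pos one_mem_strictPeriods_SL,
      PowerSeries.coeff_smul, smul_eq_mul, mul_assoc]

/-- Conjugate of a level one form by a ring endomorphism of `ℂ`. -/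
theorem levelOne_exists_conj (k : ℤ) (σ : ℂ →+* ℂ) (F : ModularForm 𝒮ℒ k) :
    ∃ F' : ModularForm 𝒮ℒ k, qExpansion 1 F' = (qExpansion 1 F).map σ := by
  obtain ⟨F', hF'⟩ := levelOne_exists_map_addHom k σ.toAddMonoidHom F
  refine ⟨F', ?_⟩
  ext n
  rw [hF', PowerSeries.coeff_map]
  rfl

end Fermat.Agent.S23
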