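import Mathlib

set_option autoImplicit false

open UpperHalfPlane hiding I
open Complex Function Filter
open scoped Manifold Topology

namespace Fermat.Agent.S23

noncomputable section

/-- Bound for roots of monic polynomials. -/
theorem norm_le_of_monic_root {n : ℕ} {x : ℂ} {a : ℕ → ℂ}
    (h : x ^ n + ∑ i ∈ Finset.range n, a i * x ^ i = 0) :
    ‖x‖ ≤ max 1 (∑ i ∈ Finset.range n, ‖a i‖) := by
  by_contra hcon
  rw [not_le, max_lt_iff] at hcon
  obtain ⟨h1, h2⟩ := hcon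
  rcases Nat.eq_zero_or_pos n with rfl | hn
  · simp at h
  have hx : x ^ n = - ∑ i ∈ Finset.range n, a i * x ^ i := eq_neg_of_add_eq_zero_left h
  have h3 : ‖x‖ ^ n ≤ (∑ i ∈ Finset.range n, ‖a i‖) * ‖x‖ ^ (n - 1) := by
    calc ‖x‖ ^ n = ‖x ^ n‖ := (norm_pow _ _).symm
      _ = ‖∑ i ∈ Finset.range n, a i * x ^ i‖ := by rw [hx, norm_neg]
      _ ≤ ∑ i ∈ Finset.range n, ‖a i * x ^ i‖ := norm_sum_le _ _
      _ ≤ ∑ i ∈ Finset.range n, ‖a i‖ * ‖x‖ ^ (n - 1) := by
          refine Finset.sum_le_sum fun i hi => ?_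
          rw [norm_mul, norm_pow]
          refine mul_le_mul_of_nonneg_left ?_ (norm_nonneg _)
          exact pow_le_pow_right₀ h1.le (by have := Finset.mem_range.mp hi; omega)
      _ = _ := by rw [Finset.sum_mul]
  have h4 : ‖x‖ ^ n = ‖x‖ * ‖x‖ ^ (n - 1) := by
    rw [← pow_succ']; congr 1; omega
  rw [h4] at h3
  have h5 : 0 < ‖x‖ ^ (n - 1) := pow_pos (by linarith) _
  have := le_of_mul_le_mul_right h3 h5
  linarith

theorem norm_pow_le_of_monic_root {n : ℕ} {x : ℂ} {a : ℕ → ℂ}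
    (h : x ^ n + ∑ i ∈ Finset.range n, a i * x ^ i = 0) (hx1 : ‖x‖ ≤ 1) :
    ‖x‖ ^ n ≤ ∑ i ∈ Finset.range n, ‖a i‖ := by
  have hx : x ^ n = - ∑ i ∈ Finset.range n, a i * x ^ i := eq_neg_of_add_eq_zero_left h
  calc ‖x‖ ^ n = ‖x ^ n‖ := (norm_pow _ _).symm
    _ = ‖∑ i ∈ Finset.range n, a i * x ^ i‖ := by rw [hx, norm_neg]
    _ ≤ ∑ i ∈ Finset.range n, ‖a i * x ^ i‖ := norm_sum_le _ _
    _ ≤ ∑ i ∈ Finset.range n, ‖a i‖ := by
        refine Finset.sum_le_sum fun i _ => ?_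
        rw [norm_mul, norm_pow]
        exact mul_le_of_le_one_right (norm_nonneg _) (pow_le_one₀ (norm_nonneg _) hx1)

theorem analyticOnNhd_comp_ofComplex {F : ℍ → ℂ} (hF : MDiff F) :
    AnalyticOnNhd ℂ (F ∘ ofComplex) upperHalfPlaneSet :=
  (UpperHalfPlane.mdifferentiable_iff.mp hF).analyticOnNhd isOpen_upperHalfPlaneSet

theorem isPreconnected_upperHalfPlaneSet : IsPreconnected upperHalfPlaneSet :=
  (convex_halfSpace_im_gt 0).isPreconnected

/-- A holomorphic function on `ℍ` that vanishes near one point vanishes identically. -/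
theorem eq_zero_of_eventually_eq_zero {F : ℍ → ℂ} (hF : MDiff F) (z₀ : ℍ)
    (h : (F ∘ ofComplex) =ᶠ[𝓝 (z₀ : ℂ)] 0) : F = 0 := by
  have := (analyticOnNhd_comp_ofComplex hF).eqOn_zero_of_preconnected_of_eventuallyEq_zero
    isPreconnected_upperHalfPlaneSet z₀.im_pos h
  funext z
  have h2 := this z.im_pos
  simpa using h2

theorem eventually_ne_zero {u : ℍ → ℂ} (hu : MDiff u) (hu0 : u ≠ 0) (z₀ : ℍ) :
    ∀ᶠ z in 𝓝[≠] (z₀ : ℂ), (u ∘ ofComplex) z ≠ 0 := by
  rcases (analyticOnNhd_comp_ofComplex hu (z₀ : ℂ) z₀.im_pos).eventually_eq_zero_or_eventually_ne_zero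
    with h | h
  · exact absurd (eq_zero_of_eventually_eq_zero hu z₀ h) hu0
  · exact h

/-- Holomorphic functions on `ℍ` form a domain. -/
theorem eq_zero_of_mul_eq_zero {F u : ℍ → ℂ} (hF : MDiff F) (hu : MDiff u) (hu0 : u ≠ 0)
    (h : ∀ z, F z * u z = 0) : F = 0 := by
  obtain ⟨z₁, hz₁⟩ : ∃ z, u z ≠ 0 := by
    by_contra hcon
    exact hu0 (funext fun z => by_contra fun hz => hcon ⟨z, hz⟩)
  refine eq_zero_of_eventually_eq_zero hF z₁ ?_
  have hcont : ContinuousAt (u ∘ ofComplex) (z₁ : ℂ) :=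
    (analyticOnNhd_comp_ofComplex hu (z₁ : ℂ) z₁.im_pos).continuousAt
  have hne : (u ∘ ofComplex) (z₁ : ℂ) ≠ 0 := by simpa using hz₁
  filter_upwards [hcont.eventually_ne hne] with w hw
  have h2 := h (ofComplex w)
  exact (mul_eq_zero.mp h2).resolve_right hw

/-- **Quotient lemma**: if `v / u` is a root of a monic polynomial with holomorphic coefficients
then `v / u` extends to a holomorphic function on `ℍ`. -/
theorem exists_mdiff_quot {n : ℕ} {u v : ℍ → ℂ} {c : ℕ → ℍ → ℂ} (hu : MDiff u) (hv : MDiff v)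
    (hc : ∀ i, MDiff (c i)) (hu0 : u ≠ 0)
    (hrel : ∀ z, v z ^ n + ∑ i ∈ Finset.range n, c i z * v z ^ i * u z ^ (n - i) = 0) :
    ∃ g : ℍ → ℂ, MDiff g ∧ (∀ z, g z * u z = v z) ∧
      ∀ z, g z ^ n + ∑ i ∈ Finset.range n, c i z * g z ^ i = 0 := by
  set U : ℂ → ℂ := u ∘ ofComplex with hU
  set V : ℂ → ℂ := v ∘ ofComplex with hV
  set C : ℕ → ℂ → ℂ := fun i => c i ∘ ofComplex with hC
  set Q : ℂ → ℂ := fun z => V z / U z with hQ
  set G : ℂ → ℂ := fun z => limUnder (𝓝[≠] z) Q with hG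
  have hUa := analyticOnNhd_comp_ofComplex hu
  have hVa := analyticOnNhd_comp_ofComplex hv
  have hCa := fun i => analyticOnNhd_comp_ofComplex (hc i)
  -- the monic relation for `Q` where `U ≠ 0`
  have hQrel : ∀ z : ℂ, U z ≠ 0 → Q z ^ n + ∑ i ∈ Finset.range n, C i z * Q z ^ i = 0 := by
    intro z hz
    have h1 := hrel (ofComplex z)
    have h2 : (Q z ^ n + ∑ i ∈ Finset.range n, C i z * Q z ^ i) * U z ^ n = 0 := by
      rw [← h1, add_mul, Finset.sum_mul]
      congr 1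
      · simp only [hQ, hV, hU, comp_apply]
        rw [div_pow, div_mul_cancel₀]
        exact pow_ne_zero _ hz
      · refine Finset.sum_congr rfl fun i hi => ?_
        have hi' : i ≤ n := (Finset.mem_range.mp hi).le
        simp only [hQ, hV, hU, hC, comp_apply]
        have hz' : u (ofComplex z) ≠ 0 := hz
        rw [← Nat.sub_add_cancel hi', pow_add, Nat.add_sub_cancel, div_pow]
        field_simp
    exact (mul_eq_zero.mp h2).resolve_right (pow_ne_zero _ hz)
  -- `G = Q` where `U ≠ 0`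
  have hGQ : ∀ z : ℂ, 0 < z.im → U z ≠ 0 → G z = Q z := by
    intro z hz hUz
    have hcont : ContinuousAt Q z := (hVa z hz).continuousAt.div (hUa z hz).continuousAt hUz
    exact (hcont.tendsto.mono_left nhdsWithin_le_nhds).limUnder_eq
  -- local structure
  have hloc : ∀ z₀ : ℍ, DifferentiableAt ℂ G z₀ := by
    intro z₀
    have h1 : ∀ᶠ z in 𝓝[≠] (z₀ : ℂ), U z ≠ 0 := eventually_ne_zero hu hu0 z₀
    have h2 : ∀ᶠ z in 𝓝 (z₀ : ℂ), 0 < z.im := isOpen_upperHalfPlaneSet.mem_nhds z₀.im_pos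
    have h3 : ∀ᶠ z in 𝓝 (z₀ : ℂ), ∀ i ∈ Finset.range n, ‖C i z‖ < ‖C i z₀‖ + 1 := by
      rw [Filter.eventually_all_finset]
      intro i _
      exact (hCa i z₀ z₀.im_pos).continuousAt.norm.eventually_lt continuousAt_const
        (lt_add_one _)
    rw [eventually_nhdsWithin_iff] at h1
    obtain ⟨r, hr, hball⟩ := Metric.eventually_nhds_iff_ball.mp (h1.and (h2.and h3))
    set s := Metric.ball (z₀ : ℂ) r with hs
    have hsn : s ∈ 𝓝 (z₀ : ℂ) := Metric.ball_mem_nhds _ hr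
    have hd : DifferentiableOn ℂ Q (s \ {(z₀ : ℂ)}) := by
      intro z hz
      have hz1 := hball z hz.1
      exact ((hVa z hz1.2.1).differentiableAt.div (hUa z hz1.2.1).differentiableAt
        (hz1.1 hz.2)).differentiableWithinAt
    have hb : BddAbove (norm ∘ Q '' (s \ {(z₀ : ℂ)})) := by
      refine ⟨max 1 (∑ i ∈ Finset.range n, (‖C i z₀‖ + 1)), ?_⟩
      rintro _ ⟨z, hz, rfl⟩
      have hz1 := hball z hz.1
      refine (norm_le_of_monic_root (hQrel z (hz1.1 hz.2))).trans ?_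
      exact max_le_max le_rfl (Finset.sum_le_sum fun i hi => (hz1.2.2 i hi).le)
    have hdiff := Complex.differentiableOn_update_limUnder_of_bddAbove hsn hd hb
    have heq : G =ᶠ[𝓝 (z₀ : ℂ)] update Q (z₀ : ℂ) (limUnder (𝓝[≠] (z₀ : ℂ)) Q) := by
      filter_upwards [hsn] with z hz
      by_cases hzz : z = z₀
      · subst hzz; simp [hG]
      · rw [update_of_ne hzz]
        have hz1 := hball z hz
        exact hGQ z hz1.2.1 (hz1.1 hzz)
    exact ((hdiff.differentiableAt hsn).congr_of_eventuallyEq heq)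
  have hgd : MDiff (fun z : ℍ => G z) := by
    intro z
    rw [UpperHalfPlane.mdifferentiableAt_iff]
    refine (hloc z).congr_of_eventuallyEq ?_
    filter_upwards [isOpen_upperHalfPlaneSet.mem_nhds z.im_pos] with w hw
    simp [ofComplex_apply_of_im_pos hw]
  have hn : 0 < n := by
    rcases Nat.eq_zero_or_pos n with rfl | hn
    · simpa using hrel UpperHalfPlane.I
    · exact hn
  have hmul : ∀ z : ℍ, G z * u z = v z := by
    intro z
    by_cases hz : u z = 0
    · have h1 := hrel z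
      have h2 : ∑ i ∈ Finset.range n, c i z * v z ^ i * u z ^ (n - i) = 0 := by
        refine Finset.sum_eq_zero fun i hi => ?_
        have : n - i ≠ 0 := by have := Finset.mem_range.mp hi; omega
        rw [hz, zero_pow this, mul_zero]
      rw [h2, add_zero] at h1
      rw [hz, mul_zero, (pow_eq_zero_iff hn.ne').mp h1]
    · have hz' : U z ≠ 0 := by simpa [hU] using hz
      rw [hGQ z z.im_pos hz']
      simp only [hQ, hV, hU, comp_apply, ofComplex_apply]
      field_simp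
  refine ⟨fun z => G z, hgd, hmul, ?_⟩
  -- the relation, by cancellation of `u ^ n`
  have hR : MDiff (fun z : ℍ => G z ^ n + ∑ i ∈ Finset.range n, c i z * G z ^ i) := by
    refine (hgd.pow n).add ?_
    have : (fun z : ℍ => ∑ i ∈ Finset.range n, c i z * G z ^ i) =
        ∑ i ∈ Finset.range n, (fun z : ℍ => c i z * G z ^ i) := by
      funext z; simp
    rw [this]
    exact MDifferentiable.sum fun i _ => (hc i).mul (hgd.pow i)
  have hun : MDiff (fun z : ℍ => u z ^ n) := hu.pow n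
  have hun0 : (fun z : ℍ => u z ^ n) ≠ 0 := by
    intro h0
    apply hu0
    funext z
    have := congrFun h0 z
    exact (pow_eq_zero_iff hn.ne').mp this
  have := eq_zero_of_mul_eq_zero hR hun hun0 (fun z => by
    rw [← hrel z, add_mul, Finset.sum_mul, ← mul_pow, hmul z]
    congr 1
    refine Finset.sum_congr rfl fun i hi => ?_
    have hi' : i ≤ n := (Finset.mem_range.mp hi).le
    rw [← hmul z]
    conv_lhs => rw [← Nat.sub_add_cancel hi', pow_add]
    ring)
  exact fun z => congrFun this z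

theorem isBoundedAtImInfty_of_monic_root {n : ℕ} {g : ℍ → ℂ} {c : ℕ → ℍ → ℂ}
    (hc : ∀ i < n, IsBoundedAtImInfty (c i))
    (h : ∀ z, g z ^ n + ∑ i ∈ Finset.range n, c i z * g z ^ i = 0) : IsBoundedAtImInfty g := by
  have hc' : ∀ i ∈ Finset.range n, ∃ M : ℝ, ∀ᶠ z in atImInfty, ‖c i z‖ ≤ M := by
    intro i hi
    obtain ⟨M, hM⟩ := (hc i (Finset.mem_range.mp hi)).bound
    exact ⟨M, by simpa using hM⟩
  choose! M hM using hc'
  have hev : ∀ᶠ z in atImInfty, ∀ i ∈ Finset.range n, ‖c i z‖ ≤ M i :=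
    (Filter.eventually_all_finset _).mpr hM
  refine Asymptotics.IsBigO.of_bound (max 1 (∑ i ∈ Finset.range n, M i)) ?_
  filter_upwards [hev] with z hz
  simp only [Pi.one_apply, norm_one, mul_one]
  exact (norm_le_of_monic_root (h z)).trans (max_le_max le_rfl (Finset.sum_le_sum hz))

theorem isZeroAtImInfty_of_monic_root {n : ℕ} (hn : 0 < n) {g : ℍ → ℂ} {c : ℕ → ℍ → ℂ}
    (hc : ∀ i < n, IsZeroAtImInfty (c i))
    (h : ∀ z, g z ^ n + ∑ i ∈ Finset.range n, c i z * g z ^ i = 0) : IsZeroAtImInfty g := by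
  have hs : Tendsto (fun z => ∑ i ∈ Finset.range n, ‖c i z‖) atImInfty (𝓝 0) := by
    have : Tendsto (fun z => ∑ i ∈ Finset.range n, ‖c i z‖) atImInfty
        (𝓝 (∑ i ∈ Finset.range n, (0 : ℝ))) :=
      tendsto_finsetSum _ fun i hi => by
        simpa using (hc i (Finset.mem_range.mp hi)).norm
    simpa using this
  have h1 : ∀ᶠ z in atImInfty, ‖g z‖ ^ n ≤ ∑ i ∈ Finset.range n, ‖c i z‖ := by
    filter_upwards [hs.eventually_lt_const (show (0 : ℝ) < 1 by norm_num)] with z hz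
    refine norm_pow_le_of_monic_root (h z) ?_
    exact (norm_le_of_monic_root (h z)).trans (max_le le_rfl hz.le)
  have h2 : Tendsto (fun z => ‖g z‖ ^ n) atImInfty (𝓝 0) :=
    squeeze_zero' (Eventually.of_forall fun z => by positivity) h1 hs
  have h3 : Tendsto (fun z => (‖g z‖ ^ n) ^ ((n : ℝ)⁻¹)) atImInfty (𝓝 (0 ^ ((n : ℝ)⁻¹))) :=
    h2.rpow_const (Or.inr (by positivity))
  rw [Real.zero_rpow (by positivity)] at h3
  have h4 : (fun z => (‖g z‖ ^ n) ^ ((n : ℝ)⁻¹)) = fun z => ‖g z‖ := by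
    funext z
    exact Real.pow_rpow_inv_natCast (norm_nonneg _) hn.ne'
  rw [h4] at h3
  exact tendsto_zero_iff_norm_tendsto_zero.mpr h3

end

end Fermat.Agent.S23
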