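import Mathlib
import Fermat.Statements.S23
import Fermat.Agent.S23.Quot

set_option autoImplicit false
open UpperHalfPlane ModularForm CongruenceSubgroup EisensteinSeries
open scoped MatrixGroups ModularForm Manifold

namespace Fermat.Agent.S23

/-- A monic relation with level-one coefficients is transported by the slash action of `SL(2,ℤ)`. -/
theorem monic_relation_slash {k : ℤ} {m : ℕ} {g : ℍ → ℂ} (e : (i : ℕ) → ModularForm 𝒮ℒ (i * k))
    (h : ∀ z, g z ^ m + ∑ j ∈ Finset.range m, e (m - j) z * g z ^ j = 0) (δ : SL(2, ℤ)) (z : ℍ) :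
    (g ∣[k] δ) z ^ m + ∑ j ∈ Finset.range m, e (m - j) z * (g ∣[k] δ) z ^ j = 0 := by
  set D : ℂ := denom (Matrix.SpecialLinearGroup.toGL
    ((Matrix.SpecialLinearGroup.map (Int.castRingHom ℝ)) δ)) ↑z with hD
  set E : ℂ := D ^ (-k) with hE
  have hg : (g ∣[k] δ) z = g (δ • z) * E := ModularForm.SL_slash_apply g δ z
  have he : ∀ i : ℕ, e i z = e i (δ • z) * E ^ i := by
    intro i
    have h1 : (⇑(e i) ∣[(i : ℤ) * k] δ) = ⇑(e i) := (e i).slash_action_eq' _ ⟨δ, rfl⟩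
    have h2 := ModularForm.SL_slash_apply (k := (i : ℤ) * k) (⇑(e i)) δ z
    rw [h1] at h2
    rw [h2, hE, ← zpow_natCast, ← zpow_mul]
    congr 2
    ring
  rw [hg]
  have key : ∀ j ∈ Finset.range m, e (m - j) z * (g (δ • z) * E) ^ j
      = E ^ m * (e (m - j) (δ • z) * g (δ • z) ^ j) := by
    intro j hj
    have hj' : j ≤ m := (Finset.mem_range.mp hj).le
    rw [he (m - j), mul_pow]
    have : E ^ m = E ^ (m - j) * E ^ j := by rw [← pow_add, Nat.sub_add_cancel hj']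
    rw [this]; ring
  rw [Finset.sum_congr rfl key, ← Finset.mul_sum, mul_pow, mul_comm (g (δ • z) ^ m), ← mul_add,
    h (δ • z), mul_zero]

theorem exists_cuspForm_of_integral (N : ℕ) [NeZero N] (k w : ℤ) (n : ℕ)
    (H : ModularForm (Gamma0 N) w) (G : ModularForm (Gamma0 N) (k + w)) (hH : H ≠ 0)
    (e : (i : ℕ) → ModularForm 𝒮ℒ (i * k))
    (he : ∀ i, 1 ≤ i → (qExpansion 1 (e i)).coeff 0 = 0)
    (hrel : ∀ z, G z ^ (n + 1) +
      ∑ i ∈ Finset.range (n + 1), e (i + 1) z * G z ^ (n - i) * H z ^ (i + 1) = 0) :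
    ∃ g : CuspForm (Gamma0 N) k, ∀ z, g z * H z = G z := by
  have hH0 : (⇑H : ℍ → ℂ) ≠ 0 := fun h => hH (DFunLike.coe_injective (by simpa using h))
  have hrel' : ∀ z, G z ^ (n + 1) + ∑ j ∈ Finset.range (n + 1),
      (fun j => ⇑(e (n + 1 - j))) j z * G z ^ j * H z ^ (n + 1 - j) = 0 := by
    intro z
    rw [← hrel z, ← Finset.sum_range_reflect]
    congr 1
    refine Finset.sum_congr rfl fun i hi => ?_
    have hi' : i ≤ n := Nat.lt_succ_iff.mp (Finset.mem_range.mp hi)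
    have h1 : n + 1 - (n + 1 - 1 - i) = i + 1 := by omega
    have h2 : n + 1 - 1 - i = n - i := by omega
    have h3 : ∀ a b : ℕ, a = b → (e a) z = (e b) z := by rintro a _ rfl; rfl
    show (e (n + 1 - (n + 1 - 1 - i))) z * G z ^ (n + 1 - 1 - i) * H z ^ (n + 1 - (n + 1 - 1 - i)) = _
    rw [h3 _ _ h1, h1, h2]
  obtain ⟨g, hgd, hgH, hgrel⟩ := exists_mdiff_quot (n := n + 1) (u := ⇑H) (v := ⇑G)
    (c := fun j => ⇑(e (n + 1 - j))) H.holo' G.holo' (fun i => (e _).holo') hH0 hrel'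
  have hinv : ∀ γ : SL(2, ℤ), γ ∈ Gamma0 N → g ∣[k] γ = g := by
    intro γ hγ
    have h1 : (⇑H ∣[w] γ) = ⇑H := H.slash_action_eq' _ ⟨γ, hγ, rfl⟩
    have h2 : (⇑G ∣[k + w] γ) = ⇑G := G.slash_action_eq' _ ⟨γ, hγ, rfl⟩
    have h3 : g * ⇑H = ⇑G := funext hgH
    have h4 : (g ∣[k] γ) * ⇑H = ⇑G := by
      rw [← h2, ← h3, ModularForm.mul_slash_SL2, h1]
    have h5 : (g ∣[k] γ) - g = 0 := by
      refine eq_zero_of_mul_eq_zero ((hgd.slash k _).sub hgd) H.holo' hH0 fun z => ?_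
      have := congrFun h4 z
      simp only [Pi.mul_apply] at this
      rw [Pi.sub_apply, sub_mul]
      exact sub_eq_zero.mpr (this.trans (hgH z).symm)
    exact sub_eq_zero.mp h5
  refine ⟨{ toFun := g
            slash_action_eq' := ?_
            holo' := hgd
            zero_at_cusps' := ?_ }, hgH⟩
  · rintro _ ⟨γ, hγ, rfl⟩
    exact hinv γ hγ
  · intro c hc
    rw [Subgroup.IsArithmetic.isCusp_iff_isCusp_SL2Z] at hc
    rw [OnePoint.isZeroAt_iff_forall_SL2Z hc]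
    intro δ _
    refine isZeroAtImInfty_of_monic_root (n := n + 1) (Nat.succ_pos n)
      (c := fun j => ⇑(e (n + 1 - j))) (fun j hj => ?_) (monic_relation_slash e hgrel δ)
    have hc' : IsCusp OnePoint.infty 𝒮ℒ := isCusp_SL2Z_iff'.mpr ⟨1, by simp⟩
    exact OnePoint.isZeroAt_infty_iff.mp
      (ModularForm.isZeroAt_of_coeffZero_eq_zero (e (n + 1 - j)) (he _ (by omega)) hc')

end Fermat.Agent.S23
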