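import Fermat.Agent.S23.Defs
import Fermat.Agent.Common.E4Level

/-!
S23, L3: the level `N` form `θ(z) = E₄(N z)` has integral `q`-expansion and is moved by every
`γ ∉ Γ₀(N)`.
-/

set_option autoImplicit false

open UpperHalfPlane ModularForm CongruenceSubgroup EisensteinSeries
open scoped MatrixGroups ModularForm Manifold

namespace Fermat.Agent.S23

theorem exists_theta (N : ℕ) [NeZero N] :
    ∃ θ : ModularForm (Gamma0 N) 4, IsIntPS (qExpansion 1 θ) ∧
      ∀ γ : SL(2, ℤ), γ ∉ Gamma0 N → (⇑θ ∣[(4 : ℤ)] γ) ≠ ⇑θ :=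
  ⟨Fermat.Agent.Common.theta N, Fermat.Agent.Common.theta_coeff_int N,
    Fermat.Agent.Common.theta_slash_ne N⟩

end Fermat.Agent.S23
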