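import Mathlib
import Fermat.Statements.S23
import Fermat.Agent.S23.Conj
import Fermat.Agent.S23.QuotForm
import Fermat.Agent.S23.Sym
import Fermat.Agent.S23.Level1
import Fermat.Agent.S23.Theta

set_option autoImplicit false
open UpperHalfPlane ModularForm CongruenceSubgroup EisensteinSeries
open scoped MatrixGroups ModularForm Manifold

namespace Fermat.Agent.S23

/-- KEY step, given a separating form `θ` with integral `q`-expansion. -/
theorem exists_conj_of_theta (N : ℕ) [NeZero N] (k : ℤ)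
    (hθ : ∃ θ : ModularForm (Gamma0 N) 4, IsIntPS (qExpansion 1 θ) ∧
      ∀ γ : SL(2, ℤ), γ ∉ Gamma0 N → (⇑θ ∣[(4 : ℤ)] γ) ≠ ⇑θ)
    (σ : ℂ →+* ℂ) (f : CuspForm (Gamma0 N) k) :
    ∃ g : CuspForm (Gamma0 N) k, qExpansion 1 g = (qExpansion 1 f).map σ := by
  obtain ⟨θ, hint, hsep⟩ := hθ
  obtain ⟨n, e, C, B, he, h1, h2, h3⟩ := structure_thm N k θ hsep f
  exact exists_conj_of N k σ (fun k F => levelOne_exists_conj k σ F)
    (fun w n H G hH e he hrel => exists_cuspForm_of_integral N k w n H G hH e he hrel)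
    θ hint f n e C B he h1 h2 h3

/-- KEY: `Aut(ℂ)` (even all ring endomorphisms of `ℂ`) acts on `S_k(Γ₀(N))` through
`q`-expansion coefficients. -/
theorem exists_conj (N : ℕ) [NeZero N] (k : ℤ) (σ : ℂ →+* ℂ) (f : CuspForm (Gamma0 N) k) :
    ∃ g : CuspForm (Gamma0 N) k, qExpansion 1 g = (qExpansion 1 f).map σ :=
  exists_conj_of_theta N k (exists_theta N) σ f

end Fermat.Agent.S23
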